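import Fermat.Agent.S40x.Diag.RefE.TameUnit
import Fermat.Agent.S40x.Node.Export
import Fermat.Agent.S40x.Edge.EdgeNode

/-!
# P-S44 (DIAG, leaf D-REFORD, ROUTE E): the abstract assembly

Route E of REF-ORD: the reference unit is `φ = red_∞ E`, `E = Δ(q^p)/Δ(q) ∈ F0 = F^I` (so
`φ = Δ̄^(p-1)`), and its orders at the non-cuspidal places of the component `κ_∞` of the special
fibre are read off from the LOCAL RINGS of the arithmetic surface exported by block R1 for C3:

* at a node place (`Node/Export.NodeDown`): `ord_P φ ≡ v_0 E - v_∞ E (mod p)`  (`ord_red_node`);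
* at a smooth point (`Node/NodeDatum.IsSmoothPtRing`): `ord_P φ = 0`  (`ord_red_smooth`);

because `E` and `E⁻¹` are integral over `ℚ[j]` (`RefE/EUnitQ`), hence lie in `S[1/p]` for every
integrally closed local ring `S ∋ j` of residue characteristic `p`
(`mem_awaySubring_of_isIntegral_adjoin_rat`).  With one non-cuspidal place where `p ∤ ord_P φ`
(`RefE/DegInst.exists_nc_place_not_dvd`, unconditional) this gives the reference facts
(`refOrd_of_perPlace`): `e₀ := v_0 E - v_∞ E ≢ 0 (mod p)`, and the node set is nonempty.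

Everything here is abstract (no modular curve).
-/

set_option autoImplicit false
set_option linter.unusedSectionVars false
set_option linter.style.haveILetI false

namespace Fermat.Agent.S40x.Diag.RefE

open IsLocalRing AlgebraicCurve
open Fermat.Agent.S40x.Node Fermat.Agent.S40x.Node.Export Fermat.Agent.S40x.R2.Transitive

/-! ### `ℚ ⊆ S[1/p]` and the integrality link -/

section Link

variable {S : Type*} [CommRing S] [IsDomain S] [IsLocalRing S]
  {F0 : Type*} [Field F0] [Algebra S F0] [IsFractionRing S F0]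

local notation "ι" => algebraMap S F0

/-- an integer prime to the residue characteristic is a unit of the local ring. -/
theorem natCast_isUnit_of_not_dvd {p : ℕ} (hp : p.Prime) (hpm : (p : S) ∈ maximalIdeal S) {m : ℕ}
    (hm : ¬ p ∣ m) : IsUnit (m : S) := by
  by_contra hnu
  have hmm : (m : S) ∈ maximalIdeal S := (mem_maximalIdeal _).mpr hnu
  have hcop : IsCoprime (p : ℤ) (m : ℤ) :=
    Nat.isCoprime_iff_coprime.mpr ((Nat.Prime.coprime_iff_not_dvd hp).mpr hm)
  obtain ⟨a, b, hab⟩ := hcop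
  have h1 : ((a : S) * (p : S) + (b : S) * (m : S)) = 1 := by
    have := congrArg (Int.cast : ℤ → S) hab
    push_cast at this
    exact this
  have h2 : (1 : S) ∈ maximalIdeal S := by
    rw [← h1]
    exact (maximalIdeal S).add_mem ((maximalIdeal S).mul_mem_left _ hpm)
      ((maximalIdeal S).mul_mem_left _ hmm)
  exact (maximalIdeal S).ne_top_iff_one.mp (Ideal.IsPrime.ne_top inferInstance) h2

/-- **`ℚ ⊆ S[1/p]`** for a local domain `S` of residue characteristic `p`. -/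
theorem algebraMap_rat_mem_awaySubring [Algebra ℚ F0] {p : ℕ} (hp : p.Prime)
    (hpm : (p : S) ∈ maximalIdeal S) (r : ℚ) :
    algebraMap ℚ F0 r ∈ awaySubring (F0 := F0) (p : S) := by
  haveI : CharZero F0 := algebraRat.charZero F0
  obtain ⟨e, m, hm, hdec⟩ := Nat.exists_eq_pow_mul_and_not_dvd r.den_ne_zero p hp.ne_one
  obtain ⟨mu, hmu⟩ := natCast_isUnit_of_not_dvd hp hpm hm
  have hden0 : ((r.den : ℕ) : F0) ≠ 0 := Nat.cast_ne_zero.mpr r.den_ne_zero
  have hden : ((r.den : ℕ) : F0) = ι (p : S) ^ e * ι (m : S) := by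
    rw [hdec, map_natCast, map_natCast]
    push_cast
    rfl
  refine ⟨e, (r.num : S) * ((mu⁻¹ : Sˣ) : S), ?_⟩
  have hmm' : ι (m : S) * ι ((mu⁻¹ : Sˣ) : S) = 1 := by
    rw [← map_mul, ← hmu, Units.mul_inv, map_one]
  have hm0 : ι (m : S) ≠ 0 := left_ne_zero_of_mul_eq_one hmm'
  have hp0 : ι (p : S) ^ e ≠ 0 := by
    intro h0
    rw [h0, zero_mul] at hden
    exact hden0 hden
  have hr : algebraMap ℚ F0 r = ((r.num : ℤ) : F0) / ((r.den : ℕ) : F0) := by
    rw [eq_ratCast, Rat.cast_def]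
  have hmu' : ι ((mu⁻¹ : Sˣ) : S) = (ι (m : S))⁻¹ := eq_inv_of_mul_eq_one_right hmm'
  rw [hr, hden, map_mul, map_intCast, hmu']
  field_simp

/-- **the integrality link**: `f` integral over `ℚ[j]` and `j ∈ S[1/p]` give `f ∈ S[1/p]`, for an
integrally closed local domain `S` of residue characteristic `p`. -/
theorem mem_awaySubring_of_isIntegral_adjoin_rat [Algebra ℚ F0] [IsIntegrallyClosed S] {p : ℕ}
    (hp : p.Prime) (hpm : (p : S) ∈ maximalIdeal S) {j0 : F0}
    (hj : j0 ∈ awaySubring (F0 := F0) (p : S)) {f : F0}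
    (hf : IsIntegral (Algebra.adjoin ℚ {j0}) f) : f ∈ awaySubring (F0 := F0) (p : S) := by
  let T : Subalgebra ℚ F0 :=
    { awaySubring (F0 := F0) (p : S) with
      algebraMap_mem' := fun r => algebraMap_rat_mem_awaySubring hp hpm r }
  have hle : Algebra.adjoin ℚ {j0} ≤ T := Algebra.adjoin_le (Set.singleton_subset_iff.mpr hj)
  obtain ⟨n, a, hrel⟩ := exists_monic_rel_of_isIntegral hf
  apply mem_awaySubring_of_isIntegral
  refine isIntegral_of_monic_rel f n
    (fun i => (⟨((a i : Algebra.adjoin ℚ {j0}) : F0), hle (a i).2⟩ :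
      awaySubring (F0 := F0) (p : S))) ?_
  exact hrel

end Link

/-! ### Order functions and valuations -/

section Ord

variable {F0 : Type*} [Field F0]

/-- the valuation of `f` in terms of an order function normalised at `π`. -/
theorem valuation_eq_zpow_of_isOrd {W : ValuationSubring F0} {w : F0 → ℤ} (h : IsOrd W w)
    {π : F0} (hπ0 : π ≠ 0) (hπ : w π = 1) {f : F0} (hf : f ≠ 0) :
    W.valuation f = W.valuation π ^ (w f) := by
  have hg0 : f * π ^ (-(w f)) ≠ 0 := mul_ne_zero hf (zpow_ne_zero _ hπ0)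
  have hwg : w (f * π ^ (-(w f))) = 0 := by
    rw [h.map_mul hf (zpow_ne_zero _ hπ0), h.map_zpow hπ0, hπ]
    ring
  obtain ⟨hg1, hg2⟩ := (h.eq_zero_iff hg0).mp hwg
  have hv1 : W.valuation (f * π ^ (-(w f))) ≤ 1 := (W.valuation_le_one_iff _).mpr hg1
  have hv2 : W.valuation (f * π ^ (-(w f)))⁻¹ ≤ 1 := (W.valuation_le_one_iff _).mpr hg2
  have hv0 : W.valuation (f * π ^ (-(w f))) ≠ 0 := (Valuation.ne_zero_iff _).mpr hg0
  have hv : W.valuation (f * π ^ (-(w f))) = 1 := by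
    rw [map_inv₀] at hv2
    exact le_antisymm hv1 ((inv_le_one₀ (zero_lt_iff.mpr hv0)).mp hv2)
  have hπv : W.valuation π ≠ 0 := (Valuation.ne_zero_iff _).mpr hπ0
  rw [map_mul, map_zpow₀, zpow_neg] at hv
  rw [← mul_one (W.valuation π ^ w f), ← hv]
  field_simp

end Ord

/-! ### The two local computations -/

section Local

variable {S : Type*} [CommRing S] [IsDomain S] [IsNoetherianRing S] [IsLocalRing S]
  {F0 : Type*} [Field F0] [Algebra S F0] [IsFractionRing S F0]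
  {k κ : Type*} [Field k] [Field κ] [Algebra k κ]

local notation "ι" => algebraMap S F0

/-- **(E3), node.**  At a node of the arithmetic surface (`NodeDown`), for `f ∈ F0` with
`f, f⁻¹ ∈ S[1/p]` and `v_∞ f = 0`: `ord_P (red_∞ f) ≡ v_0 f (mod p)` at the branch `P` of the node on
the component `κ_∞` (`red_∞ u'` a uniformiser at `P`, `red_∞ S ⊆ O_P`). -/
theorem ord_red_node {p : ℕ} (hp0 : 0 < p) {u u' : S} {Oinf Ozero : ValuationSubring F0}
    {vinf vzero : F0 → ℤ} (h : NodeDown S F0 p u u' Oinf Ozero vinf vzero)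
    (redInf : Oinf →+* κ) (P : Place k κ)
    (hnn : ∀ x : S, 0 ≤ P.ord (redInf ⟨ι x, h.inf_mem x⟩))
    (hu' : P.ord (redInf ⟨ι u', h.inf_mem u'⟩) = 1)
    {f : F0} (hf : f ≠ 0)
    (hx : f ∈ awaySubring (F0 := F0) (p : S)) (hy : f⁻¹ ∈ awaySubring (F0 := F0) (p : S))
    (hvf : vinf f = 0) :
    ∃ hfO : f ∈ Oinf, (p : ℤ) ∣ P.ord (redInf ⟨f, hfO⟩) - vzero f := by
  haveI := h.ufm
  obtain ⟨ψ, hψ⟩ := h.node.mul_eq
  have hpF0 := h.natCast_ne_zero
  have ha : Oinf.valuation f = Oinf.valuation ((p : ℕ) : F0) ^ (0 : ℤ) := by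
    have := valuation_eq_zpow_of_isOrd h.isOrd_inf hpF0 h.vinf_p hf
    rwa [hvf] at this
  have hb : Ozero.valuation f = Ozero.valuation ((p : ℕ) : F0) ^ (vzero f) :=
    valuation_eq_zpow_of_isOrd h.isOrd_zero hpF0 h.vzero_p hf
  obtain ⟨hmem, hcong⟩ := tame_unit_node h.node.prime_u h.node.prime_u' h.node.not_associated
    ψ.isUnit hψ Oinf Ozero h.inf_mem h.inf_unit h.natCast_inv_notMem_inf h.zero_mem h.zero_unit
    h.natCast_inv_notMem_zero redInf P hnn hu' hp0 hf hx hy ha hb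
  have e : f / ((p : ℕ) : F0) ^ (0 : ℤ) = f := by rw [zpow_zero, div_one]
  have hfO : f ∈ Oinf := e ▸ hmem
  refine ⟨hfO, ?_⟩
  have e2 : (⟨f / ((p : ℕ) : F0) ^ (0 : ℤ), hmem⟩ : Oinf) = ⟨f, hfO⟩ := Subtype.ext e
  rw [e2, sub_zero] at hcong
  exact Int.modEq_iff_dvd.mp hcong.symm

/-- **(E3), smooth point.**  At a smooth point of the special fibre (`IsSmoothPtRing`, one branch
`O`), for `f ∈ F0` with `f, f⁻¹ ∈ S[1/p]` and `v f = 0`: `red f ≠ 0` and `ord_P (red f) = 0`. -/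
theorem ord_red_smooth {p : ℕ} {t : S} (hS : IsSmoothPtRing S p t) {O : ValuationSubring F0}
    {v : F0 → ℤ} (hO : IsOrd O v) (hvp : v ((p : ℕ) : F0) = 1)
    (hmem : ∀ x : S, ι x ∈ O) (hunit : ∀ x : S, ¬ (p : S) ∣ x → (ι x)⁻¹ ∈ O)
    (red : O →+* κ) (P : Place k κ)
    (hnn : ∀ x : S, 0 ≤ P.ord (red ⟨ι x, hmem x⟩))
    {f : F0} (hf : f ≠ 0)
    (hx : f ∈ awaySubring (F0 := F0) (p : S)) (hy : f⁻¹ ∈ awaySubring (F0 := F0) (p : S))
    (hvf : v f = 0) :
    ∃ hfO : f ∈ O, red ⟨f, hfO⟩ ≠ 0 ∧ P.ord (red ⟨f, hfO⟩) = 0 := by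
  haveI := Fermat.Agent.S40x.Edge.ufm_of_isSmoothPtRing hS
  have hpS0 : (p : S) ≠ 0 := hS.prime_p.ne_zero
  have hpF0 : ((p : ℕ) : F0) ≠ 0 := by
    intro h0
    apply hpS0
    apply IsFractionRing.injective S F0
    rw [map_natCast, h0, map_zero]
  have hιp : ι (p : S) = ((p : ℕ) : F0) := map_natCast _ _
  have hzO : (ι (p : S))⁻¹ ∉ O := by
    intro hm
    rw [hιp] at hm
    have h1 := (hO.nonneg_iff (inv_ne_zero hpF0)).mpr hm
    rw [hO.map_inv hpF0, hvp] at h1
    omega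
  have ha : O.valuation f = O.valuation (ι (p : S)) ^ (0 : ℤ) := by
    have := valuation_eq_zpow_of_isOrd hO hpF0 hvp hf
    rw [hvf] at this
    rw [hιp]
    exact this
  obtain ⟨hm', hne, hord⟩ := tame_unit_smooth hS.prime_p O hmem hunit hzO red P hnn hf hx hy ha
  have e : f / ι (p : S) ^ (0 : ℤ) = f := by rw [zpow_zero, div_one]
  have hfO : f ∈ O := e ▸ hm'
  have e2 : (⟨f / ι (p : S) ^ (0 : ℤ), hm'⟩ : O) = ⟨f, hfO⟩ := Subtype.ext e
  rw [e2] at hne hord
  exact ⟨hfO, hne, hord⟩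

end Local

/-! ### The glue: the reference facts -/

section Glue

variable {k κ : Type*} [Field k] [Field κ] [Algebra k κ]

/-- **REF-ORD, route E, abstract conclusion.**  If `ord_P φ ≡ e₀` at the node places, `ord_P φ = 0`
at the other non-cuspidal places, and SOME non-cuspidal place has `p ∤ ord_P φ`, then `p ∤ e₀` and
there is a non-cuspidal node place. -/
theorem refOrd_of_perPlace {p : ℕ} (NC Nd : Set (Place k κ)) (φ : κ) (e₀ : ℤ)
    (hnode : ∀ P ∈ NC, P ∈ Nd → (p : ℤ) ∣ P.ord φ - e₀)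
    (hsm : ∀ P ∈ NC, P ∉ Nd → P.ord φ = 0)
    (hex : ∃ P ∈ NC, ¬ (p : ℤ) ∣ P.ord φ) :
    ¬ (p : ℤ) ∣ e₀ ∧ ∃ P ∈ NC, P ∈ Nd := by
  obtain ⟨P, hNC, hP⟩ := hex
  have hPd : P ∈ Nd := by
    by_contra hn
    apply hP
    rw [hsm P hNC hn]
    exact dvd_zero _
  refine ⟨fun hd => hP ?_, P, hNC, hPd⟩
  have := hnode P hNC hPd
  have e : P.ord φ = (P.ord φ - e₀) + e₀ := by ring
  rw [e]
  exact dvd_add this hd

end Glue

end Fermat.Agent.S40x.Diag.RefE
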