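import Mathlib
import Fermat.Agent.S40x.Diag.RefOrd

/-!
# P-S44 (DIAG, leaf D-REFORD, ROUTE E), step (E4): `e₀ ≠ 0` by a degree count

`κ / k` a function field over an algebraically closed field, `t, φ ∈ κ`, polynomials `A, B` over `k`
with  `φ · B(t)^6 = (t (t - c)^4 A(t)^6)^(p-1)`  (for `φ = Δ̄^(p-1)`, `t = x̄₄`, `c = 16`, `A = A4`:
the landed identity `RefId.exists_denominator_delta`), `A B` prime to `X (X - c)` and
`p ∤ deg (A B)` (`deg (A4 B) = 2 + 3 (p - 1) = 3 p - 1`).  Then not all root multiplicities of `A B`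
are divisible by `p`, so there is `s ≠ 0, c` such that `p ∤ ord_P φ` at EVERY place `P` with
uniformiser `t - s`:  `ord_P φ = 6 (p - 1) mult_s A - 6 mult_s B ≡ - 6 mult_s (A B)`.

Consequence (with UNR and TAME-Sm): some non-cuspidal place is a node place and the common value
`e₀` of `ord Ub` at the node places is nonzero modulo `p`.
-/

set_option autoImplicit false
set_option linter.unusedSectionVars false

namespace Fermat.Agent.S40x.Diag.RefE

open Polynomial AlgebraicCurve Fermat.Agent.S40x.Diag.RefOrd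

section Poly

variable {k : Type*} [Field k] [IsAlgClosed k]

/-- over an algebraically closed field, a polynomial whose degree is not divisible by `p` has a
root whose multiplicity is not divisible by `p`. -/
theorem exists_root_not_dvd_multiplicity {G : k[X]} (hG : G ≠ 0) {p : ℕ}
    (hdeg : ¬ p ∣ G.natDegree) : ∃ s : k, G.IsRoot s ∧ ¬ p ∣ G.rootMultiplicity s := by
  classical
  by_contra hcon
  push Not at hcon
  apply hdeg
  have h1 : G.roots.card = G.natDegree :=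
    (splits_iff_card_roots).mp (IsAlgClosed.splits G)
  rw [← h1, ← Multiset.toFinset_sum_count_eq]
  apply Finset.dvd_sum
  intro s hs
  rw [count_roots]
  exact hcon s ((mem_roots hG).mp (Multiset.mem_toFinset.mp hs))

end Poly

section Place

variable {k κ : Type*} [Field k] [IsAlgClosed k] [Field κ] [Algebra k κ]

/-- **(E4), abstract.**  See the file header. -/
theorem exists_const_not_dvd_ord {p : ℕ} (hp : p.Prime) (hp6 : ¬ p ∣ 6) {t φ : κ} {c : k}
    {A B : k[X]} (hA0 : A.eval 0 ≠ 0) (hAc : A.eval c ≠ 0) (hB0 : B.eval 0 ≠ 0)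
    (hBc : B.eval c ≠ 0) (hdeg : ¬ p ∣ (A * B).natDegree)
    (hrel : φ * aeval t B ^ 6 =
      (t * (t - algebraMap k κ c) ^ 4 * aeval t A ^ 6) ^ (p - 1)) :
    ∃ s : k, s ≠ 0 ∧ s ≠ c ∧
      ∀ P : Place k κ, P.ord (t - algebraMap k κ s) = 1 → ¬ (p : ℤ) ∣ P.ord φ := by
  have hA : A ≠ 0 := by
    rintro rfl
    exact hA0 eval_zero
  have hB : B ≠ 0 := by
    rintro rfl
    exact hB0 eval_zero
  have hAB : A * B ≠ 0 := mul_ne_zero hA hB
  obtain ⟨s, hs, hmult⟩ := exists_root_not_dvd_multiplicity hAB hdeg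
  have hs0 : s ≠ 0 := by
    rintro rfl
    rw [IsRoot, eval_mul] at hs
    exact (mul_ne_zero hA0 hB0) hs
  have hsc : s ≠ c := by
    rintro rfl
    rw [IsRoot, eval_mul] at hs
    exact (mul_ne_zero hAc hBc) hs
  refine ⟨s, hs0, hsc, ?_⟩
  intro P hP hdvd
  -- the orders of the factors
  obtain ⟨hAt0, hAord⟩ := ord_aeval P hP A hA
  obtain ⟨hBt0, hBord⟩ := ord_aeval P hP B hB
  have hX : (X : k[X]).eval s ≠ 0 := by rwa [eval_X]
  obtain ⟨ht0, htord⟩ := ord_aeval_of_eval_ne_zero P hP X hX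
  rw [aeval_X] at ht0 htord
  have hXc : (X - C c : k[X]).eval s ≠ 0 := by
    rw [eval_sub, eval_X, eval_C]
    exact sub_ne_zero.mpr hsc
  obtain ⟨htc0, htcord⟩ := ord_aeval_of_eval_ne_zero P hP (X - C c) hXc
  rw [map_sub, aeval_X, aeval_C] at htc0 htcord
  have hrhs0 : t * (t - algebraMap k κ c) ^ 4 * aeval t A ^ 6 ≠ 0 :=
    mul_ne_zero (mul_ne_zero ht0 (pow_ne_zero _ htc0)) (pow_ne_zero _ hAt0)
  have hφ0 : φ ≠ 0 := by
    rintro rfl
    rw [zero_mul] at hrel
    exact (pow_ne_zero _ hrhs0) hrel.symm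
  have opow : ∀ (x : κ) (n : ℕ), P.ord (x ^ n) = (n : ℤ) * P.ord x := by
    intro x n
    rw [← zpow_natCast, P.ord_zpow]
  have h1 := congrArg P.ord hrel
  rw [P.ord_mul hφ0 (pow_ne_zero _ hBt0), opow, opow,
    P.ord_mul (mul_ne_zero ht0 (pow_ne_zero _ htc0)) (pow_ne_zero _ hAt0),
    P.ord_mul ht0 (pow_ne_zero _ htc0), opow, opow, htord, htcord, hAord, hBord] at h1
  -- `ord φ = 6 (p - 1) mult A - 6 mult B`
  have hp1 : ((p - 1 : ℕ) : ℤ) = (p : ℤ) - 1 := by
    rw [Nat.cast_sub hp.one_le]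
    simp
  rw [hp1] at h1
  have hsum : rootMultiplicity s (A * B) = rootMultiplicity s A + rootMultiplicity s B :=
    rootMultiplicity_mul hAB
  -- `p ∣ 6 (mult A + mult B)`
  have h2 : (p : ℤ) ∣ 6 * ((rootMultiplicity s A : ℤ) + (rootMultiplicity s B : ℤ)) := by
    obtain ⟨m, hm⟩ := hdvd
    refine ⟨6 * (rootMultiplicity s A : ℤ) - m, ?_⟩
    push_cast at h1
    linear_combination h1 - hm
  have h3 : (p : ℤ) ∣ ((6 * (rootMultiplicity s A + rootMultiplicity s B) : ℕ) : ℤ) := by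
    push_cast
    exact h2
  have h4 : p ∣ 6 * (rootMultiplicity s A + rootMultiplicity s B) := Int.natCast_dvd_natCast.mp h3
  rcases (Nat.Prime.dvd_mul hp).mp h4 with h5 | h5
  · exact hp6 h5
  · exact hmult (hsum ▸ h5)

/-- **(E4), consumer form**: if moreover every value `s ≠ 0, c` of `t` is taken at a non-cuspidal
place at which `t - s` is a uniformiser (existence of zeros + UNR), then some non-cuspidal place
has `p ∤ ord_P φ`. -/
theorem exists_place_not_dvd_ord {p : ℕ} (hp : p.Prime) (hp6 : ¬ p ∣ 6) {t φ : κ} {c : k}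
    {A B : k[X]} (hA0 : A.eval 0 ≠ 0) (hAc : A.eval c ≠ 0) (hB0 : B.eval 0 ≠ 0)
    (hBc : B.eval c ≠ 0) (hdeg : ¬ p ∣ (A * B).natDegree)
    (hrel : φ * aeval t B ^ 6 =
      (t * (t - algebraMap k κ c) ^ 4 * aeval t A ^ 6) ^ (p - 1))
    (NC : Place k κ → Prop)
    (hex : ∀ s : k, s ≠ 0 → s ≠ c → ∃ P : Place k κ, NC P ∧ P.ord (t - algebraMap k κ s) = 1) :
    ∃ P : Place k κ, NC P ∧ ¬ (p : ℤ) ∣ P.ord φ := by
  obtain ⟨s, hs0, hsc, hs⟩ := exists_const_not_dvd_ord hp hp6 hA0 hAc hB0 hBc hdeg hrel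
  obtain ⟨P, hNC, hP⟩ := hex s hs0 hsc
  exact ⟨P, hNC, hs P hP⟩

end Place

end Fermat.Agent.S40x.Diag.RefE
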