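import Mathlib
import Fermat.Agent.S40x.Diag.RefE.DegTrick
import Fermat.Agent.S40x.Diag.RefOrdInst
import Fermat.Agent.Gateway.ES.AllDivisors

/-!
# P-S44 (DIAG, leaf D-REFORD, ROUTE E), step (E4), instance at `Fk k N`

Good level `N` (`4 ∣ N`, `ℓ ∤ N`, `ℓ ≥ 5`), `k` the algebraically closed residue field, `t ∈ Fk k N`
the reduced Hauptmodul `x̄₄`, `φ = Δ̄^(ℓ-1) ∈ Fk k N`:

* `exists_nc_place_over` : every value `s ≠ 0, 16` of `x̄₄` is taken at a NON-CUSPIDAL place at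
  which `x̄₄ - s` is a uniformiser (existence of zeros + `j D4(x) = N4(x)` + UNR);
* `delta_rel_Fk` : the landed identity `RefId.exists_denominator_delta` inside `Fk k N`;
* **`exists_nc_place_not_dvd`** : there is a non-cuspidal place `P` with `ℓ ∤ ord_P Δ̄^(ℓ-1)`;
* `exists_nc_place_ordMod_ne_zero` : the same for `Ub = Δ̄^(1-ℓ)` in the `Abs.ordMod` vocabulary.

Consequence for REF-ORD (route E): the place `P` cannot be a smooth point of the special fibre
(TAME-Sm gives order `0` there), hence it is a node place, and the common value `e₀` of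
`ordMod Ub` at the node places is `≠ 0`.
-/

set_option autoImplicit false
set_option linter.unusedSectionVars false

noncomputable section

namespace Fermat.Agent.S40x.Diag.RefE

open Polynomial ModularCurve AlgebraicCurve
open Fermat.Agent.S16.Two Fermat.Agent.S16.SD Fermat.Agent.S40x.Thick.ThetaX4
open Fermat.Agent.S40x.Thick.ThetaX4K
open Fermat.Agent.S40x.Thick.ModM
open Fermat.Agent.S40x.Diag.RefOrd Fermat.Agent.S40x.Diag.RefOrdInst

section Abstract

variable {k κ : Type*} [Field k] [Field κ] [Algebra k κ]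

/-- a polynomial not vanishing at `a` is a unit at every place with `t(P) = a` (no hypothesis on
the ramification). -/
theorem ord_aeval_eq_zero_of_pos (P : Place k κ) {t : κ} {a : k}
    (hP : 0 < P.ord (t - algebraMap k κ a)) (g : k[X]) (hg : g.eval a ≠ 0) :
    aeval t g ≠ 0 ∧ P.ord (aeval t g) = 0 := by
  have h0 : t - algebraMap k κ a ≠ 0 := ne_zero_of_ord_ne_zero P hP.ne'
  have htmem : t ∈ P.toValuationSubring := by
    have h1 : t - algebraMap k κ a ∈ P.toValuationSubring := by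
      rw [Fermat.Agent.S24.place_mem_iff_ord_nonneg P h0]
      exact hP.le
    have : t = (t - algebraMap k κ a) + algebraMap k κ a := by ring
    rw [this]
    exact P.toValuationSubring.add_mem _ _ h1 (P.algebraMap_mem' a)
  obtain ⟨h, hh⟩ : X - C a ∣ g - C (g.eval a) := X_sub_C_dvd_sub_C_eval
  have e1 : aeval t g = algebraMap k κ (g.eval a) + (t - algebraMap k κ a) * aeval t h := by
    have := congrArg (aeval t) hh
    simp only [map_sub, map_mul, aeval_X, aeval_C] at this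
    linear_combination this
  have hc0 : algebraMap k κ (g.eval a) ≠ 0 := by rwa [ne_eq, map_eq_zero]
  have hcord : P.ord (algebraMap k κ (g.eval a)) = 0 := ord_const P hg
  rcases eq_or_ne (aeval t h) 0 with h1 | h1
  · rw [e1, h1, mul_zero, add_zero]
    exact ⟨hc0, hcord⟩
  · have h2 : (t - algebraMap k κ a) * aeval t h ≠ 0 := mul_ne_zero h0 h1
    have h3 : 0 ≤ P.ord (aeval t h) :=
      (Fermat.Agent.S24.place_mem_iff_ord_nonneg P h1).mp (aeval_mem P htmem h)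
    have h4 : P.ord (algebraMap k κ (g.eval a)) < P.ord ((t - algebraMap k κ a) * aeval t h) := by
      rw [hcord, P.ord_mul h0 h1]
      omega
    have h5 := (Fermat.Agent.S24.isAddVal_ord P).map_add_of_lt hc0 h2 h4
    rw [← e1, hcord] at h5
    refine ⟨?_, h5⟩
    rw [e1]
    intro h6
    have h7 : algebraMap k κ (g.eval a) = -((t - algebraMap k κ a) * aeval t h) :=
      eq_neg_of_add_eq_zero_left h6
    rw [h7, (Fermat.Agent.S24.isAddVal_ord P).map_neg h2] at h4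
    exact lt_irrefl _ h4

/-- polynomials in `t` are regular where `t` takes a finite value. -/
theorem ord_aeval_nonneg_of_pos (P : Place k κ) {t : κ} {a : k}
    (hP : 0 < P.ord (t - algebraMap k κ a)) (g : k[X]) : 0 ≤ P.ord (aeval t g) := by
  have h0 : t - algebraMap k κ a ≠ 0 := ne_zero_of_ord_ne_zero P hP.ne'
  have htmem : t ∈ P.toValuationSubring := by
    have h1 : t - algebraMap k κ a ∈ P.toValuationSubring := by
      rw [Fermat.Agent.S24.place_mem_iff_ord_nonneg P h0]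
      exact hP.le
    have : t = (t - algebraMap k κ a) + algebraMap k κ a := by ring
    rw [this]
    exact P.toValuationSubring.add_mem _ _ h1 (P.algebraMap_mem' a)
  rcases eq_or_ne (aeval t g) 0 with h1 | h1
  · rw [h1, P.ord_zero]
  · exact (Fermat.Agent.S24.place_mem_iff_ord_nonneg P h1).mp (aeval_mem P htmem g)

end Abstract

section Fk

open Fermat.Agent.S24.Setup Fermat.Agent.Gateway.GoodRed Fermat.Agent.S40x.Diag.Abs
open Fermat.Agent.Gateway.GoodRed.ConjFamily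

variable {N : ℕ} [NeZero N] (ℓ : ℕ) [Fact ℓ.Prime] (A : ValuationSubring Kbar)
  {k : Type} [Field k] [IsAlgClosed k] [CharP k ℓ] (π : A →+* k)
  (hπ : Function.Surjective π) (hℓN : ¬ ℓ ∣ N)

local notation "Ck" => (HahnSeries.C : k →+* LaurentSeries k)

/-- `j D4(t) = N4(t)` in `Fk k N`. -/
theorem jFk_rel (t : Fk k N) (ht : (t : LaurentSeries k) = xK k) :
    jFk k N * aeval t (D4k k) = aeval t (N4k k) := by
  apply Subtype.ext
  push_cast
  rw [coe_aeval (Fk k N) ht, coe_aeval (Fk k N) ht, D4k, N4k, eval₂_map_int, eval₂_map_int]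
  exact jq_relK k

include hπ hℓN in
/-- **existence of non-cuspidal places over every value `s ≠ 0, 16` of `x̄₄`**, with uniformiser
`x̄₄ - s`. -/
theorem exists_nc_place_over (h4 : 4 ∣ N) (hA : A.LiesOverPrime ℓ) (t : Fk k N)
    (ht : (t : LaurentSeries k) = xK k) (s : k) (hs0 : s ≠ 0) (hs16 : s ≠ 16) :
    ∃ P : Place k (Fk k N), 0 ≤ P.ord (jFk k N) ∧ P.ord (t - algebraMap k (Fk k N) s) = 1 := by
  have hNk : ((N : ℕ) : k) ≠ 0 := by
    rw [Ne, CharP.cast_eq_zero_iff k ℓ]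
    exact hℓN
  have htr : Transcendental k t := TLineHurwitz.transcendental_t4 N t ht
  have hg : ∀ c : k, t - algebraMap k (Fk k N) s ≠ algebraMap k (Fk k N) c := by
    intro c hc
    apply htr
    have : t = algebraMap k (Fk k N) (c + s) := by
      rw [map_add, ← hc]
      ring
    rw [this]
    exact isAlgebraic_algebraMap _
  obtain ⟨P, hP⟩ := Fermat.Agent.Gateway.ES.exists_ord_pos hNk
    (t - algebraMap k (Fk k N) s) hg
  have hDs : (D4k k).eval s ≠ 0 := by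
    rw [D4k_eq]
    simp only [eval_mul, eval_pow, eval_sub, eval_X, eval_ofNat]
    exact mul_ne_zero hs0 (pow_ne_zero _ (sub_ne_zero.mpr hs16))
  obtain ⟨hD0, hDord⟩ := ord_aeval_eq_zero_of_pos P hP (D4k k) hDs
  have hNnn := ord_aeval_nonneg_of_pos P hP (N4k k)
  have hrel := jFk_rel (N := N) t ht
  have hnc : 0 ≤ P.ord (jFk k N) := by
    rcases eq_or_ne (jFk k N) 0 with hj | hj
    · rw [hj, P.ord_zero]
    · have h1 := congrArg P.ord hrel
      rw [P.ord_mul hj hD0, hDord, add_zero] at h1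
      rw [h1]
      exact hNnn
  exact ⟨P, hnc, Fermat.Agent.S40x.C2.HurwitzEqB.ord_sub_eq_one_four ℓ A π hπ hℓN h4 hA t ht P s
    hnc hP⟩

/-- **the identity `Δ̄^(ℓ-1) B(x̄)⁶ = (x̄ (x̄-16)⁴ A4(x̄)⁶)^(ℓ-1)` inside `Fk k N`** (transport of
`RefId.exists_denominator_delta`). -/
theorem delta_rel_Fk (hℓ2 : ℓ ≠ 2) {t φ : Fk k N} (ht : (t : LaurentSeries k) = xK k)
    (hφ : (φ : LaurentSeries k) = iK k (Dq k) ^ (ℓ - 1)) :
    ∃ B : k[X], B.Monic ∧ B.natDegree = 6 * ((ℓ - 1) / 2) ∧ B.eval 0 ≠ 0 ∧ B.eval 16 ≠ 0 ∧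
      φ * aeval t B ^ 6 =
        (t * (t - algebraMap k (Fk k N) 16) ^ 4 * aeval t (A4k k) ^ 6) ^ (ℓ - 1) := by
  obtain ⟨B, h1, h2, h3, h4, -, h6⟩ :=
    Fermat.Agent.S40x.Diag.RefId.exists_denominator_delta k ℓ hℓ2
  refine ⟨B, h1, h2, h3, h4, ?_⟩
  apply Subtype.ext
  push_cast
  rw [coe_aeval (Fk k N) ht, coe_aeval (Fk k N) ht, hφ, ht, A4k, eval₂_map_int]
  rw [map_ofNat]
  exact h6

include hπ hℓN in
/-- **(E4) at the good level**: some NON-CUSPIDAL place `P` of the special fibre has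
`ℓ ∤ ord_P Δ̄^(ℓ-1)`. -/
theorem exists_nc_place_not_dvd (h4 : 4 ∣ N) (hA : A.LiesOverPrime ℓ) (h5 : 5 ≤ ℓ) {t φ : Fk k N}
    (ht : (t : LaurentSeries k) = xK k)
    (hφ : (φ : LaurentSeries k) = iK k (Dq k) ^ (ℓ - 1)) :
    ∃ P : Place k (Fk k N), 0 ≤ P.ord (jFk k N) ∧ ¬ (ℓ : ℤ) ∣ P.ord φ := by
  have hℓ : ℓ.Prime := Fact.out
  have hℓ2 : ℓ ≠ 2 := by omega
  have h2 : (2 : k) ≠ 0 := two_ne_zero_of_four_dvd ℓ h4 hℓN
  obtain ⟨B, hBm, hBdeg, hB0, hB16, hrel⟩ := delta_rel_Fk (N := N) ℓ hℓ2 ht hφ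
  have hℓ6 : ¬ ℓ ∣ 6 := by
    intro h
    have h2' : ℓ ∣ 2 * 3 := h
    rcases (Nat.Prime.dvd_mul hℓ).mp h2' with h3 | h3
    · have := Nat.le_of_dvd (by norm_num) h3
      omega
    · have := Nat.le_of_dvd (by norm_num) h3
      omega
  have hA0 : (A4k k).eval 0 ≠ 0 := by
    rw [A4k_eq]
    simp only [eval_add, eval_mul, eval_pow, eval_X, eval_ofNat]
    have : (0 : k) ^ 2 + 224 * 0 + 256 = 2 ^ 8 := by norm_num
    rw [this]
    exact pow_ne_zero _ h2
  have hA16 : (A4k k).eval 16 ≠ 0 := by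
    rw [A4k_eq]
    simp only [eval_add, eval_mul, eval_pow, eval_X, eval_ofNat]
    have : (16 : k) ^ 2 + 224 * 16 + 256 = 2 ^ 12 := by norm_num
    rw [this]
    exact pow_ne_zero _ h2
  have hAm : (A4k k).Monic := by
    rw [A4k_eq]
    monicity!
  have hAdeg : (A4k k).natDegree = 2 := by
    rw [A4k_eq]
    compute_degree!
  have hdeg : ¬ ℓ ∣ (A4k k * B).natDegree := by
    rw [hAm.natDegree_mul hBm, hAdeg, hBdeg]
    obtain ⟨m, hm⟩ := (Nat.Prime.eq_two_or_odd' hℓ).resolve_left hℓ2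
    intro hd
    -- `ℓ = 2 m + 1`, `2 + 6 m = 3 ℓ - 1`
    have e : (ℓ - 1) / 2 = m := by omega
    rw [e] at hd
    have h3 : ℓ ∣ 3 * ℓ := Dvd.intro_left 3 rfl
    have h4' : 2 + 6 * m + 1 = 3 * ℓ := by omega
    have h5' : ℓ ∣ 1 := by
      have := (Nat.dvd_add_right hd).mp (h4' ▸ h3)
      exact this
    exact hℓ.one_lt.ne' (Nat.dvd_one.mp h5')
  obtain ⟨P, hnc, hP⟩ := exists_place_not_dvd_ord (k := k) (κ := Fk k N) hℓ hℓ6 hA0 hA16 hB0 hB16
    hdeg hrel (fun P => 0 ≤ P.ord (jFk k N))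
    (fun s hs0 hs16 => exists_nc_place_over ℓ A π hπ hℓN h4 hA t ht s hs0 hs16)
  exact ⟨P, hnc, hP⟩

include hπ hℓN in
/-- **(E4), `Abs.ordMod` form for the reference function `Ub = Δ̄^(1-ℓ)`**: some non-cuspidal place
has `ordMod ℓ P Ub ≠ 0`. -/
theorem exists_nc_place_ordMod_ne_zero (h4 : 4 ∣ N) (hA : A.LiesOverPrime ℓ) (h5 : 5 ≤ ℓ)
    {t Ub : Fk k N} (ht : (t : LaurentSeries k) = xK k)
    (hUb : (Ub : LaurentSeries k) = (iK k (Dq k) ^ (ℓ - 1))⁻¹) :
    ∃ P : Place k (Fk k N), 0 ≤ P.ord (jFk k N) ∧ ordMod ℓ P Ub ≠ 0 := by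
  have hφ : ((Ub⁻¹ : Fk k N) : LaurentSeries k) = iK k (Dq k) ^ (ℓ - 1) := by
    push_cast
    rw [hUb, inv_inv]
  obtain ⟨P, hnc, hP⟩ := exists_nc_place_not_dvd ℓ A π hπ hℓN h4 hA h5 ht hφ
  refine ⟨P, hnc, ?_⟩
  intro h0
  apply hP
  rw [ordMod, ZMod.intCast_zmod_eq_zero_iff_dvd] at h0
  rw [P.ord_inv]
  exact (dvd_neg).mpr h0

end Fk

end Fermat.Agent.S40x.Diag.RefE
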