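import Mathlib
import Fermat.Agent.Gateway.GoodRed.Forms.Analytic
import Fermat.Agent.S28.Hauptmodul.MFSeries

/-!
# P-S44 (C2, DIAG, leaf D-REFORD, ROUTE E), step (E1)+(E2), analytic part

`E_N(z) = Δ(N z) / Δ(z)` is a holomorphic, nowhere vanishing, `Γ₀(N)`-invariant function on `ℍ`, all
of whose `SL(2,ℤ)`-translates (and those of `1 / E_N`) are cusp functions of level `N`.  Hence
(`Dict/RangeC.mem_range_embC_iff`, `SymmFn.exists_relation`):

* `exists_embC_eq_EHol` : `E_N` is the analytic avatar of an element of `ℂ(X₀(N))`;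
* `exists_monic_relation_EHol`, `exists_monic_relation_EInv` : `E_N` and `1 / E_N` are integral over
  `ℂ[j]` (so `E_N` is a unit off the cusps).
-/

set_option autoImplicit false
set_option linter.unusedSectionVars false

open UpperHalfPlane Complex Filter ModularForm CongruenceSubgroup
open scoped Manifold MatrixGroups ModularForm

noncomputable section

namespace Fermat.Agent.S40x.Diag.RefE

open Fermat.Agent.S24 Fermat.Agent.S24.QExp
open Fermat.Agent.S24.CuspOrd (cuspFnAlg IsCuspFn IsCuspMer)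
open Fermat.Agent.Gateway.GoodRed.Forms
open Fermat.Agent.S23.UFunction (scale coe_scale)
open Fermat.Agent.S28 (levelRaise deltaMF coe_levelRaise coe_deltaMF)

local notation "Δ" => ModularForm.discriminant

variable (N : ℕ) [NeZero N]

/-- `z ↦ Δ(N z)` -/
def deltaNFn : ℍ → ℂ := fun z => Δ (scale N z)

theorem deltaNFn_eq : deltaNFn N = ⇑(levelRaise N deltaMF) := by
  rw [coe_levelRaise]
  rfl

theorem deltaNFn_ne_zero (z : ℍ) : deltaNFn N z ≠ 0 := ModularForm.discriminant_ne_zero _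

/-- the three function-level properties of the modular form `Δ(N z)` on `Γ₀(N)` -/
theorem deltaNFn_isMF : MDiff (deltaNFn N) ∧ (∀ γ ∈ Gamma0 N, deltaNFn N ∣[(12 : ℤ)] γ = deltaNFn N) ∧
    ∀ γ : SL(2, ℤ), IsBoundedAtImInfty (deltaNFn N ∣[(12 : ℤ)] γ) := by
  rw [deltaNFn_eq]
  exact (Fermat.Agent.S20.Free.isMF_iff (Γ := Gamma0 N) (k := 12)
    (f := ⇑(levelRaise N deltaMF))).mp ⟨levelRaise N deltaMF, rfl⟩

/-- the slashes of `Δ(N z)` are cusp functions of level `N` -/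
theorem isCuspFn_deltaNFn_slash (g : SL(2, ℤ)) : IsCuspFn N (deltaNFn N ∣[(12 : ℤ)] g) := by
  obtain ⟨h1, h2, h3⟩ := deltaNFn_isMF N
  exact ⟨h1.slash 12 _, isPer_slash h2 g, ModGrowth.of_isBoundedAtImInfty (h3 g)⟩

/-- `Δ` is invariant under the weight `12` slash action of `SL(2,ℤ)` -/
theorem discriminant_slash (g : SL(2, ℤ)) : (Δ : ℍ → ℂ) ∣[(12 : ℤ)] g = Δ :=
  CuspForm.discriminant.slash_action_eq' _ ⟨g, rfl⟩

/-! ### The holomorphic functions -/

/-- `Δ` as a holomorphic function -/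
def deltaHol : HolFun := ⟨Δ, CuspOrd.mdiff_discriminant⟩

theorem deltaHol_apply (z : ℍ) : (deltaHol : ℍ → ℂ) z = Δ z := rfl

theorem deltaHol_mem : deltaHol ∈ cuspFnAlg N :=
  ⟨CuspOrd.mdiff_discriminant, CuspOrd.isPer_discriminant_nat N,
    ModGrowth.of_isBoundedAtImInfty CuspOrd.isBounded_discriminant⟩

theorem deltaHol_ne_zero : deltaHol ≠ 0 := by
  intro h
  have := congrArg (fun a : HolFun => (a : ℍ → ℂ) UpperHalfPlane.I) h
  exact ModularForm.discriminant_ne_zero _ this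

/-- the cusp function `Δ(N z) ∣[12] g⁻¹` -/
def numHol (g : SL(2, ℤ)) : HolFun :=
  ⟨deltaNFn N ∣[(12 : ℤ)] g⁻¹, (isCuspFn_deltaNFn_slash N g⁻¹).mdiff⟩

theorem numHol_mem (g : SL(2, ℤ)) : numHol N g ∈ cuspFnAlg N := isCuspFn_deltaNFn_slash N g⁻¹

theorem numHol_apply (g : SL(2, ℤ)) (z : ℍ) :
    (numHol N g : ℍ → ℂ) z =
      deltaNFn N (g⁻¹ • z) * UpperHalfPlane.denom (g⁻¹ : SL(2, ℤ)) z ^ (-(12 : ℤ)) := by
  show (deltaNFn N ∣[(12 : ℤ)] g⁻¹) z = _
  rw [ModularForm.SL_slash_apply]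

theorem numHol_apply_ne_zero (g : SL(2, ℤ)) (z : ℍ) : (numHol N g : ℍ → ℂ) z ≠ 0 := by
  rw [numHol_apply]
  exact mul_ne_zero (deltaNFn_ne_zero N _) (zpow_ne_zero _ (UpperHalfPlane.denom_ne_zero _ _))

theorem numHol_ne_zero (g : SL(2, ℤ)) : numHol N g ≠ 0 := by
  intro h
  have := congrArg (fun a : HolFun => (a : ℍ → ℂ) UpperHalfPlane.I) h
  exact numHol_apply_ne_zero N g _ this

theorem discriminant_smul_inv (g : SL(2, ℤ)) (z : ℍ) :
    Δ z = Δ (g⁻¹ • z) * UpperHalfPlane.denom (g⁻¹ : SL(2, ℤ)) z ^ (-(12 : ℤ)) := by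
  have h := congrFun (discriminant_slash g⁻¹) z
  rw [ModularForm.SL_slash_apply] at h
  exact h.symm

/-- `E_N(z) = Δ(N z) / Δ(z)` -/
def EHol : HolFun :=
  ⟨fun z => deltaNFn N z / Δ z, by
    have hf := UpperHalfPlane.mdifferentiable_iff.mp (deltaNFn_isMF N).1
    have hd := UpperHalfPlane.mdifferentiable_iff.mp CuspOrd.mdiff_discriminant
    refine UpperHalfPlane.mdifferentiable_iff.mpr ((hf.div hd ?_).congr ?_)
    · intro w hw
      exact ModularForm.discriminant_ne_zero _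
    · intro w hw
      rfl⟩

/-- `1 / E_N(z) = Δ(z) / Δ(N z)` -/
def EInv : HolFun :=
  ⟨fun z => Δ z / deltaNFn N z, by
    have hf := UpperHalfPlane.mdifferentiable_iff.mp (deltaNFn_isMF N).1
    have hd := UpperHalfPlane.mdifferentiable_iff.mp CuspOrd.mdiff_discriminant
    refine UpperHalfPlane.mdifferentiable_iff.mpr ((hd.div hf ?_).congr ?_)
    · intro w hw
      exact deltaNFn_ne_zero N _
    · intro w hw
      rfl⟩

theorem EHol_apply (z : ℍ) : (EHol N : ℍ → ℂ) z = deltaNFn N z / Δ z := rfl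

theorem EInv_apply (z : ℍ) : (EInv N : ℍ → ℂ) z = Δ z / deltaNFn N z := rfl

theorem EHol_mul_EInv : EHol N * EInv N = 1 := by
  apply HolFun.ext
  intro z
  rw [HolFun.coe_mul_apply, EHol_apply, EInv_apply]
  have h1 := deltaNFn_ne_zero N z
  have h2 : Δ z ≠ 0 := ModularForm.discriminant_ne_zero z
  show _ = (1 : ℂ)
  field_simp

/-- **key identity** `(g • E_N) * Δ = Δ(N ·) ∣[12] g⁻¹` -/
theorem smul_EHol_mul (g : SL(2, ℤ)) : (g • EHol N) * deltaHol = numHol N g := by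
  apply HolFun.ext
  intro z
  rw [HolFun.coe_mul_apply, HolFun.sl_smul_apply, EHol_apply, numHol_apply, deltaHol_apply,
    discriminant_smul_inv g z]
  have h2 : Δ (g⁻¹ • z) ≠ 0 := ModularForm.discriminant_ne_zero _
  field_simp

/-- `(g • (1 / E_N)) * (Δ(N ·) ∣[12] g⁻¹) = Δ` -/
theorem smul_EInv_mul (g : SL(2, ℤ)) : (g • EInv N) * numHol N g = deltaHol := by
  apply HolFun.ext
  intro z
  rw [HolFun.coe_mul_apply, HolFun.sl_smul_apply, EInv_apply, numHol_apply, deltaHol_apply,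
    discriminant_smul_inv g z]
  have h2 := deltaNFn_ne_zero N (g⁻¹ • z)
  field_simp

theorem smul_EHol_mem (g : SL(2, ℤ)) : g • EHol N ∈ cuspFnAlg N :=
  mem_cuspFnAlg_of_mul_eq (Nat.pos_of_ne_zero (NeZero.ne N)) (numHol_mem N g) (deltaHol_mem N)
    deltaHol_ne_zero (smul_EHol_mul N g)

theorem smul_EInv_mem (g : SL(2, ℤ)) : g • EInv N ∈ cuspFnAlg N :=
  mem_cuspFnAlg_of_mul_eq (Nat.pos_of_ne_zero (NeZero.ne N)) (deltaHol_mem N) (numHol_mem N g)
    (numHol_ne_zero N g) (smul_EInv_mul N g)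

/-! ### Invariance under `Γ₀(N)` -/

theorem numHol_of_mem {γ : SL(2, ℤ)} (hγ : γ ∈ Gamma0 N) :
    numHol N γ = ⟨deltaNFn N, (deltaNFn_isMF N).1⟩ := by
  apply HolFun.ext
  intro z
  show (deltaNFn N ∣[(12 : ℤ)] γ⁻¹) z = deltaNFn N z
  rw [(deltaNFn_isMF N).2.1 γ⁻¹ (inv_mem hγ)]

theorem EHol_mul_deltaHol : EHol N * deltaHol = ⟨deltaNFn N, (deltaNFn_isMF N).1⟩ := by
  apply HolFun.ext
  intro z
  rw [HolFun.coe_mul_apply, EHol_apply, deltaHol_apply]
  exact div_mul_cancel₀ _ (ModularForm.discriminant_ne_zero z)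

theorem EHol_inv (γ : SL(2, ℤ)) (hγ : γ ∈ Gamma0 N) : γ • EHol N = EHol N := by
  have h1 := smul_EHol_mul N γ
  rw [numHol_of_mem N hγ, ← EHol_mul_deltaHol] at h1
  exact mul_right_cancel₀ deltaHol_ne_zero h1

theorem EInv_inv (γ : SL(2, ℤ)) (hγ : γ ∈ Gamma0 N) : γ • EInv N = EInv N := by
  have h1 : γ • (EHol N * EInv N) = EHol N * EInv N := by
    rw [EHol_mul_EInv, smul_one]
  rw [smul_mul', EHol_inv N γ hγ] at h1
  have h0 : EHol N ≠ 0 := by
    intro h
    have := EHol_mul_EInv N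
    rw [h, zero_mul] at this
    exact zero_ne_one this
  exact mul_left_cancel₀ h0 h1

theorem EHol_mem_growthAlg : EHol N ∈ SymmFn.growthAlg := fun γ => (smul_EHol_mem N γ).growth

theorem EInv_mem_growthAlg : EInv N ∈ SymmFn.growthAlg := fun γ => (smul_EInv_mem N γ).growth

theorem EHol_mem_perFun : EHol N ∈ PerFun := by
  refine ⟨isPer_one_of_inv (EHol_inv N), ?_⟩
  have := (smul_EHol_mem N 1).growth
  rwa [one_smul] at this

/-! ### The function field -/

/-- `E_N` lies in the image of the analytic embedding of `ℂ(X₀(N))`. -/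
theorem exists_embC_eq_EHol :
    ∃ x : Fermat.Agent.Gateway.Dict.SetupC.FC N,
      Fermat.Agent.Gateway.Dict.EmbedC.embC N x = algebraMap HolFun MerFun (EHol N) := by
  have := (Fermat.Agent.Gateway.Dict.RangeC.mem_range_embC_iff N
    (algebraMap HolFun MerFun (EHol N))).mpr ⟨?_, ?_⟩
  · exact this
  · intro γ hγ
    rw [MerFun.sl_smul_algebraMap, EHol_inv N γ hγ]
  · intro g
    rw [MerFun.sl_smul_algebraMap]
    exact CuspOrd.isCuspMer_algebraMap (smul_EHol_mem N g)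

/-- a monic relation over `ℂ[j]` for an invariant function all of whose translates have moderate
growth, read in the function field -/
theorem exists_monic_relation_of_inv (θ : HolFun) (hinv : ∀ γ ∈ Gamma0 N, γ • θ = θ)
    (hg : θ ∈ SymmFn.growthAlg) (x : Fermat.Agent.Gateway.Dict.SetupC.FC N)
    (hx : Fermat.Agent.Gateway.Dict.EmbedC.embC N x = algebraMap HolFun MerFun θ) :
    ∃ (n : ℕ) (p : ℕ → Polynomial ℂ),
      x ^ n + ∑ i ∈ Finset.range n,
        Polynomial.aeval (Fermat.Agent.Gateway.Dict.SetupC.jF N) (p i) * x ^ i = 0 := by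
  obtain ⟨p, hp1, hrel⟩ := SymmFn.exists_relation (Gamma0 N) θ hinv hg
  refine ⟨(Gamma0 N).index, p, ?_⟩
  apply Fermat.Agent.Gateway.Dict.EmbedC.embC_injective N
  have hae : ∀ q : Polynomial ℂ, Fermat.Agent.Gateway.Dict.EmbedC.embC N
      (Polynomial.aeval (Fermat.Agent.Gateway.Dict.SetupC.jF N) q) =
      algebraMap HolFun MerFun (Polynomial.aeval jHol q) := fun q =>
    Fermat.Agent.Gateway.Dict.DegreeC.emb_aeval (Fermat.Agent.Gateway.Dict.EmbedC.embData N) q
  rw [map_add, map_pow, map_sum, map_zero, hx]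
  simp only [map_mul, map_pow, hae, hx]
  rw [Finset.sum_range_succ, hp1, one_mul] at hrel
  have := congrArg (algebraMap HolFun MerFun) hrel
  rw [map_add, map_sum, map_pow, map_zero] at this
  simp only [map_mul, map_pow] at this
  rw [add_comm]
  exact this

/-- **`E_N` and `1 / E_N` are integral over `ℂ[j]`**: if `x ∈ ℂ(X₀(N))` has analytic avatar `E_N`
then `x` and `x⁻¹` satisfy monic relations over `ℂ[j]`. -/
theorem exists_monic_relations (x : Fermat.Agent.Gateway.Dict.SetupC.FC N)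
    (hx : Fermat.Agent.Gateway.Dict.EmbedC.embC N x = algebraMap HolFun MerFun (EHol N)) :
    (∃ (n : ℕ) (p : ℕ → Polynomial ℂ),
      x ^ n + ∑ i ∈ Finset.range n,
        Polynomial.aeval (Fermat.Agent.Gateway.Dict.SetupC.jF N) (p i) * x ^ i = 0) ∧
    (∃ (n : ℕ) (p : ℕ → Polynomial ℂ),
      x⁻¹ ^ n + ∑ i ∈ Finset.range n,
        Polynomial.aeval (Fermat.Agent.Gateway.Dict.SetupC.jF N) (p i) * x⁻¹ ^ i = 0) := by
  refine ⟨exists_monic_relation_of_inv N (EHol N) (EHol_inv N) (EHol_mem_growthAlg N) x hx,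
    exists_monic_relation_of_inv N (EInv N) (EInv_inv N) (EInv_mem_growthAlg N) x⁻¹ ?_⟩
  rw [map_inv₀, hx]
  have h1 : algebraMap HolFun MerFun (EHol N) * algebraMap HolFun MerFun (EInv N) = 1 := by
    rw [← map_mul, EHol_mul_EInv, map_one]
  exact (eq_inv_of_mul_eq_one_right h1).symm

/-! ### The `q`-expansion -/

/-- the formal series `Δ = q ∏ (1 - q^n)^24` over `ℤ` -/
def deltaPS : PowerSeries ℤ := PowerSeries.X * ModularCurve.dedekindEtaUnit

/-- the formal `q`-series of `E_N`: `q^(N-1) ∏ (1 - q^(N n))^24 / ∏ (1 - q^n)^24 ∈ ℤ[[q]]` -/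
def EPS : PowerSeries ℤ :=
  PowerSeries.X ^ (N - 1) * PowerSeries.expand N (NeZero.ne N) ModularCurve.dedekindEtaUnit *
    ModularCurve.dedekindEtaUnitInv

/-- `E_N * Δ(q) = Δ(q^N)` formally -/
theorem EPS_mul_deltaPS :
    EPS N * deltaPS = PowerSeries.expand N (NeZero.ne N) deltaPS := by
  have hN : N - 1 + 1 = N := Nat.sub_add_cancel (Nat.pos_of_ne_zero (NeZero.ne N))
  rw [deltaPS, map_mul, PowerSeries.expand_X, EPS]
  calc PowerSeries.X ^ (N - 1) * PowerSeries.expand N (NeZero.ne N) ModularCurve.dedekindEtaUnit *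
        ModularCurve.dedekindEtaUnitInv * (PowerSeries.X * ModularCurve.dedekindEtaUnit)
      = PowerSeries.X ^ (N - 1 + 1) *
          PowerSeries.expand N (NeZero.ne N) ModularCurve.dedekindEtaUnit *
          (ModularCurve.dedekindEtaUnit * ModularCurve.dedekindEtaUnitInv) := by ring
    _ = _ := by rw [hN, ModularCurve.dedekindEtaUnit_mul_inv, mul_one]

theorem deltaHol_mem_perFun : deltaHol ∈ PerFun := by
  have := deltaHol_mem 1
  exact ⟨fun z => CuspOrd.isPer_discriminant z, this.growth⟩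

/-- `Δ(N z)` as a holomorphic function -/
def deltaNHol : HolFun := ⟨deltaNFn N, (deltaNFn_isMF N).1⟩

theorem isBounded_deltaNFn : IsBoundedAtImInfty (deltaNFn N) := by
  have := (deltaNFn_isMF N).2.2 1
  rwa [SlashAction.slash_one] at this

theorem deltaNHol_mem_perFun : deltaNHol N ∈ PerFun := by
  refine ⟨?_, ModGrowth.of_isBoundedAtImInfty (isBounded_deltaNFn N)⟩
  have h := isPer_slash (M := N) (k := 12) (deltaNFn_isMF N).2.1 1
  rw [SlashAction.slash_one] at h
  -- period `1`: `Δ(N (z + 1)) = Δ(N z + N)`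
  intro z
  show Δ (scale N ((1 : ℝ) +ᵥ z)) = Δ (scale N z)
  have e : scale N ((1 : ℝ) +ᵥ z) = ((N : ℕ) : ℝ) +ᵥ scale N z := by
    apply UpperHalfPlane.ext
    rw [coe_scale, UpperHalfPlane.coe_vadd, UpperHalfPlane.coe_vadd, coe_scale]
    push_cast
    ring
  rw [e]
  exact CuspOrd.isPer_discriminant_nat N _

theorem qLaurent_deltaHol :
    qLaurent ⟨deltaHol, deltaHol_mem_perFun⟩ =
      HahnSeries.ofPowerSeries ℤ ℂ (deltaPS.map (Int.castRingHom ℂ)) := by
  rw [qLaurent_of_bdd ⟨deltaHol, deltaHol_mem_perFun⟩ CuspOrd.isBounded_discriminant]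
  congr 1
  exact Fermat.Agent.S24.JQExp.qExpansion_discriminant

theorem qLaurent_deltaNHol :
    qLaurent ⟨deltaNHol N, deltaNHol_mem_perFun N⟩ =
      HahnSeries.ofPowerSeries ℤ ℂ
        ((PowerSeries.expand N (NeZero.ne N) deltaPS).map (Int.castRingHom ℂ)) := by
  rw [qLaurent_of_bdd ⟨deltaNHol N, deltaNHol_mem_perFun N⟩ (isBounded_deltaNFn N)]
  congr 1
  show qExpansion 1 (deltaNFn N) = _
  rw [deltaNFn_eq, Fermat.Agent.S28.qExpansion_levelRaise, Fermat.Agent.S28.map_expand_int,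
    coe_deltaMF]
  congr 1
  exact Fermat.Agent.S24.JQExp.qExpansion_discriminant

/-- **the `q`-expansion of `E_N`** is the integral power series `EPS N`. -/
theorem qLaurent_EHol :
    qLaurent ⟨EHol N, EHol_mem_perFun N⟩ =
      HahnSeries.ofPowerSeries ℤ ℂ ((EPS N).map (Int.castRingHom ℂ)) := by
  have h1 : (⟨EHol N, EHol_mem_perFun N⟩ : PerFun) * ⟨deltaHol, deltaHol_mem_perFun⟩ =
      ⟨deltaNHol N, deltaNHol_mem_perFun N⟩ := Subtype.ext (EHol_mul_deltaHol N)
  have h2 := congrArg qLaurent h1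
  rw [map_mul, qLaurent_deltaHol, qLaurent_deltaNHol, ← EPS_mul_deltaPS, map_mul, map_mul] at h2
  have h0 : HahnSeries.ofPowerSeries ℤ ℂ (deltaPS.map (Int.castRingHom ℂ)) ≠ 0 := by
    rw [← qLaurent_deltaHol]
    intro h
    have h3 : (⟨deltaHol, deltaHol_mem_perFun⟩ : PerFun) = 0 :=
      qLaurent_injective (by rw [h, map_zero])
    exact deltaHol_ne_zero (congrArg (fun p : PerFun => (p : HolFun)) h3)
  exact mul_right_cancel₀ h0 h2

/-- the preimage of `E_N` in `ℂ(X₀(N))` has `q`-expansion `EPS N`. -/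
theorem exists_FC_EHol :
    ∃ x : Fermat.Agent.Gateway.Dict.SetupC.FC N,
      Fermat.Agent.Gateway.Dict.EmbedC.embC N x = algebraMap HolFun MerFun (EHol N) ∧
      (x : LaurentSeries ℂ) =
        HahnSeries.ofPowerSeries ℤ ℂ ((EPS N).map (Int.castRingHom ℂ)) := by
  obtain ⟨x, hx⟩ := exists_embC_eq_EHol N
  refine ⟨x, hx, ?_⟩
  rw [← qLaurent_EHol]
  exact (Fermat.Agent.Gateway.Dict.EmbedC.qLaurent_eq_of_embC_eq N x (EHol_mem_perFun N) hx).symm

end Fermat.Agent.S40x.Diag.RefE
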