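import Mathlib

/-!
# P-S44 (DIAG, ROUTE E): monic relations and integrality (Mathlib only)

* `isIntegral_of_monic_rel` : `y ^ n + ∑_{i<n} a_i y ^ i = 0` gives `IsIntegral R y`;
* `exists_monic_rel_of_isIntegral` : the converse;
* `awaySubring π = R[1/π] ⊆ Frac R` and `mem_awaySubring_of_isIntegral` : `R[1/π]` is integrally
  closed in `Frac R` when `R` is.
-/

set_option autoImplicit false
set_option linter.unusedSectionVars false

namespace Fermat.Agent.S40x.Diag.RefE

/-- A monic relation `y ^ n + ∑_{i<n} a_i y ^ i = 0` gives integrality. -/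
theorem isIntegral_of_monic_rel {R A : Type*} [CommRing R] [CommRing A]
    [Algebra R A] (y : A) (n : ℕ) (a : ℕ → R)
    (h : y ^ n + ∑ i ∈ Finset.range n, algebraMap R A (a i) * y ^ i = 0) : IsIntegral R y := by
  refine ⟨Polynomial.X ^ n + ∑ i : Fin n, Polynomial.C (a (i : ℕ)) * Polynomial.X ^ (i : ℕ),
    Polynomial.monic_X_pow_add (Polynomial.degree_sum_fin_lt fun i : Fin n => a (i : ℕ)), ?_⟩
  rw [Polynomial.eval₂_add, Polynomial.eval₂_pow, Polynomial.eval₂_X, Polynomial.eval₂_finsetSum]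
  simp only [Polynomial.eval₂_mul, Polynomial.eval₂_C, Polynomial.eval₂_pow, Polynomial.eval₂_X]
  rw [← h, Finset.sum_range]

/-- An integral element satisfies a monic relation. -/
theorem exists_monic_rel_of_isIntegral {R A : Type*} [CommRing R] [CommRing A]
    [Algebra R A] {y : A} (h : IsIntegral R y) :
    ∃ (n : ℕ) (a : ℕ → R), y ^ n + ∑ i ∈ Finset.range n, algebraMap R A (a i) * y ^ i = 0 := by
  obtain ⟨P, hP, hPy⟩ := h
  refine ⟨P.natDegree, fun i => P.coeff i, ?_⟩
  have h1 := hP.as_sum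
  rw [h1, Polynomial.eval₂_add, Polynomial.eval₂_pow, Polynomial.eval₂_X,
    Polynomial.eval₂_finsetSum] at hPy
  simp only [Polynomial.eval₂_mul, Polynomial.eval₂_C, Polynomial.eval₂_pow,
    Polynomial.eval₂_X] at hPy
  exact hPy

section Away

variable {R : Type*} [CommRing R] [IsDomain R]
variable {F0 : Type*} [Field F0] [Algebra R F0] [IsFractionRing R F0]

/-- the subring `R[1/π] ⊆ F0 = Frac R` -/
def awaySubring (π : R) : Subring F0 where
  carrier := {t | ∃ (n : ℕ) (x : R), t * algebraMap R F0 π ^ n = algebraMap R F0 x}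
  zero_mem' := ⟨0, 0, by simp⟩
  one_mem' := ⟨0, 1, by simp⟩
  add_mem' := by
    rintro s t ⟨n, x, hx⟩ ⟨m, y, hy⟩
    refine ⟨n + m, x * π ^ m + y * π ^ n, ?_⟩
    rw [map_add, map_mul, map_mul, map_pow, map_pow, ← hx, ← hy, pow_add]
    ring
  mul_mem' := by
    rintro s t ⟨n, x, hx⟩ ⟨m, y, hy⟩
    refine ⟨n + m, x * y, ?_⟩
    rw [map_mul, ← hx, ← hy, pow_add]
    ring
  neg_mem' := by
    rintro s ⟨n, x, hx⟩
    exact ⟨n, -x, by rw [map_neg, ← hx]; ring⟩

theorem mem_awaySubring_iff {π : R} {t : F0} :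
    t ∈ awaySubring (F0 := F0) π ↔
      ∃ (n : ℕ) (x : R), t * algebraMap R F0 π ^ n = algebraMap R F0 x := Iff.rfl

theorem algebraMap_mem_awaySubring (π x : R) : algebraMap R F0 x ∈ awaySubring (F0 := F0) π :=
  ⟨0, x, by simp⟩

/-- **`R[1/π]` is integrally closed in `Frac R`** when `R` is. -/
theorem mem_awaySubring_of_isIntegral [IsIntegrallyClosed R] (π : R) {f : F0}
    (hf : IsIntegral (awaySubring (F0 := F0) π) f) : f ∈ awaySubring (F0 := F0) π := by
  obtain ⟨d, c, hrel⟩ := exists_monic_rel_of_isIntegral hf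
  have hc : ∀ i, ∃ (n : ℕ) (x : R),
      ((c i : awaySubring (F0 := F0) π) : F0) * algebraMap R F0 π ^ n = algebraMap R F0 x :=
    fun i => (c i).2
  choose n x hx using hc
  set N : ℕ := ∑ i ∈ Finset.range d, n i with hN
  have hnN : ∀ i ∈ Finset.range d, n i ≤ N := fun i hi =>
    Finset.single_le_sum (f := n) (fun _ _ => Nat.zero_le _) hi
  set s : F0 := algebraMap R F0 π with hs
  -- `g = f * π ^ N` is integral over `R`
  have hg : IsIntegral R (f * s ^ N) := by
    refine isIntegral_of_monic_rel (f * s ^ N) d (fun i => x i * π ^ (N * (d - i) - n i)) ?_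
    have key : ∀ i ∈ Finset.range d,
        algebraMap R F0 (x i * π ^ (N * (d - i) - n i)) * (f * s ^ N) ^ i =
          s ^ (N * d) * (((c i : awaySubring (F0 := F0) π) : F0) * f ^ i) := by
      intro i hi
      have hid : i < d := Finset.mem_range.mp hi
      have h1 : n i ≤ N * (d - i) := by
        have h2 : N ≤ N * (d - i) := Nat.le_mul_of_pos_right N (Nat.sub_pos_of_lt hid)
        exact (hnN i hi).trans h2
      have h3 : N * d = n i + (N * (d - i) - n i) + N * i := by
        have h4 : N * d = N * (d - i) + N * i := by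
          rw [← Nat.mul_add, Nat.sub_add_cancel hid.le]
        omega
      rw [map_mul, ← hx i, map_pow, mul_pow, ← pow_mul, h3, pow_add, pow_add]
      ring
    rw [Finset.sum_congr rfl key, ← Finset.mul_sum, mul_pow, ← pow_mul, mul_comm (f ^ d),
      ← mul_add]
    have hrel' : f ^ d + ∑ i ∈ Finset.range d, ((c i : awaySubring (F0 := F0) π) : F0) * f ^ i
        = 0 := hrel
    rw [hrel', mul_zero]
  obtain ⟨y, hy⟩ := IsIntegrallyClosed.isIntegral_iff.mp hg
  exact ⟨N, y, hy.symm⟩

end Away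

end Fermat.Agent.S40x.Diag.RefE
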