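import Mathlib
import Fermat.Agent.Gateway.BaseChange.Fixed
import Fermat.Agent.S40x.Diag.RefE.EUnitAn
import Fermat.Agent.S40x.Diag.RefE.IntRel

/-!
# P-S44 (C2, DIAG, leaf D-REFORD, ROUTE E), step (E1)+(E2), descent to `ℚ`

`EQ N = Δ(q^N) / Δ(q) ∈ ℚ((q))` (an integral power series, `EPS N`):

* `EQ_mem : EQ N ∈ modularFunctionFieldFull N` (so `coeffEmb L (EQ N) ∈ F_N(L)` for every `L`);
* `isIntegral_EQ`, `isIntegral_EQ_inv` : `EQ N` and `(EQ N)⁻¹` are integral over `ℚ[j] ⊆ ℚ((q))`.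

The descent `ℂ → ℚ` of the analytic statements of `EUnitAn` is the coefficientwise slice trick.
-/

set_option autoImplicit false
set_option linter.unusedSectionVars false

noncomputable section

namespace Fermat.Agent.S40x.Diag.RefE

open ModularCurve Fermat.Agent.Gateway.BaseChange

/-! ### The slice trick for monic relations -/

section Slice

variable {K L : Type*} [Field K] [Field L] [Algebra K L]

theorem slice_aeval_mul_pow' (φ : L →ₗ[K] K) (P : Polynomial L) (jk y : LaurentSeries K) (i : ℕ) :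
    slice φ (Polynomial.aeval (iota K L jk) P * iota K L y ^ i)
      = (∑ k ∈ Finset.range (P.natDegree + 1),
          algebraMap K (LaurentSeries K) (φ (P.coeff k)) * jk ^ k) * y ^ i := by
  rw [Polynomial.aeval_eq_sum_range, Finset.sum_mul, map_sum, Finset.sum_mul]
  refine Finset.sum_congr rfl fun k _ => ?_
  rw [Algebra.smul_def, mul_assoc, ← map_pow, ← map_pow, ← map_mul, slice_const_mul_iota,
    mul_assoc]

/-- **descent of integrality along a field extension `K ⊆ L` of the coefficients**: a monic relation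
for `ι y` over `L[ι j]` gives integrality of `y` over `K[j]`. -/
theorem isIntegral_of_iota_relation (y jk : LaurentSeries K) (n : ℕ) (P : ℕ → Polynomial L)
    (hrel : iota K L y ^ n + ∑ i ∈ Finset.range n,
      Polynomial.aeval (iota K L jk) (P i) * iota K L y ^ i = 0) :
    IsIntegral (Algebra.adjoin K {jk}) y := by
  obtain ⟨φ, hφ⟩ := LinearMap.exists_leftInverse_of_injective (Algebra.linearMap K L)
    (LinearMap.ker_eq_bot.mpr (algebraMap K L).injective)
  have hφ1 : φ 1 = 1 := by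
    have h := LinearMap.congr_fun hφ 1
    simpa using h
  have h2 := congrArg (slice φ) hrel
  rw [map_add, map_sum, map_zero] at h2
  have hpow : slice φ (iota K L y ^ n) = y ^ n := by
    have := slice_const_mul_iota φ (1 : L) (y ^ n)
    rwa [map_one, one_mul, hφ1, map_one, one_mul, map_pow] at this
  let a : ℕ → Algebra.adjoin K {jk} := fun i =>
    ⟨∑ k ∈ Finset.range ((P i).natDegree + 1),
        algebraMap K (LaurentSeries K) (φ ((P i).coeff k)) * jk ^ k,
      Subalgebra.sum_mem _ fun k _ =>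
        Subalgebra.mul_mem _ (Subalgebra.algebraMap_mem _ _)
          (Subalgebra.pow_mem _ (Algebra.subset_adjoin (Set.mem_singleton _)) k)⟩
  refine isIntegral_of_monic_rel y n a ?_
  rw [← h2, hpow]
  congr 1
  refine Finset.sum_congr rfl fun i _ => ?_
  rw [slice_aeval_mul_pow']
  rfl

end Slice

/-! ### `E_N` over `ℚ` -/

variable (N : ℕ) [NeZero N]

/-- `E_N = Δ(q^N) / Δ(q)` as a Laurent series over `ℚ` -/
def EQ : LaurentSeries ℚ := HahnSeries.ofPowerSeries ℤ ℚ ((EPS N).map (Int.castRingHom ℚ))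

theorem iota_EQ :
    iota ℚ ℂ (EQ N) = HahnSeries.ofPowerSeries ℤ ℂ ((EPS N).map (Int.castRingHom ℂ)) := by
  rw [EQ, iota, coeffMap_ofPowerSeries]
  congr 1

/-- the base change `ℚ → ℚ` does nothing -/
theorem laurentBaseChange_rat (F : IntermediateField ℚ (LaurentSeries ℚ)) :
    laurentBaseChange ℚ F = F := by
  have hid : ∀ x : LaurentSeries ℚ, coeffEmb ℚ x = x := by
    intro x
    ext k
    simp
  apply le_antisymm
  · rw [laurentBaseChange, IntermediateField.adjoin_le_iff]
    rintro _ ⟨x, hx, rfl⟩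
    rw [hid]
    exact hx
  · intro x hx
    have := coeffEmb_mem_laurentBaseChange ℚ hx
    rwa [hid] at this

/-- **(E1)** `E_N` lies in the function field `ℚ(j(q^d) : d ∣ N)` of `X₀(N)`. -/
theorem EQ_mem : EQ N ∈ modularFunctionFieldFull N := by
  obtain ⟨x, -, hx⟩ := exists_FC_EHol N
  have h1 : iota ℚ ℂ (EQ N) ∈ laurentBaseChange ℂ (modularFunctionFieldFull N) := by
    rw [iota_EQ, ← hx]
    exact x.2
  have h2 := (isBC_laurentBaseChange ℚ ℂ (modularFunctionFieldFull N)).mem_of_iota_mem h1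
  rwa [laurentBaseChange_rat] at h2

/-- for every field of constants `L`, `E_N ∈ F_N(L)`. -/
theorem coeffEmb_EQ_mem (L : Type*) [Field L] [Algebra ℚ L] :
    coeffEmb L (EQ N) ∈ laurentBaseChange L (modularFunctionFieldFull N) :=
  coeffEmb_mem_laurentBaseChange L (EQ_mem N)

theorem iota_jq : iota ℚ ℂ jq = ((Fermat.Agent.Gateway.Dict.SetupC.jF N :
    Fermat.Agent.Gateway.Dict.SetupC.FC N) : LaurentSeries ℂ) := by
  rw [Fermat.Agent.Gateway.Dict.SetupC.coe_jF, Fermat.Agent.Gateway.Dict.SetupC.jC_eq,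
    qExpand_one_apply]
  rfl

/-- a relation in `ℂ(X₀(N))`, read inside `ℂ((q))` -/
theorem coe_relation' (x : Fermat.Agent.Gateway.Dict.SetupC.FC N) (n : ℕ) (p : ℕ → Polynomial ℂ)
    (hrel : x ^ n + ∑ i ∈ Finset.range n,
      Polynomial.aeval (Fermat.Agent.Gateway.Dict.SetupC.jF N) (p i) * x ^ i = 0) :
    (x : LaurentSeries ℂ) ^ n + ∑ i ∈ Finset.range n,
      Polynomial.aeval (iota ℚ ℂ jq) (p i) * (x : LaurentSeries ℂ) ^ i = 0 := by
  have h1 := congrArg (Fermat.Agent.Gateway.Dict.SetupC.phi N) hrel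
  rw [map_add, map_pow, map_sum, map_zero] at h1
  have hcomp : (Fermat.Agent.Gateway.Dict.SetupC.phi N).comp
      (algebraMap ℂ (Fermat.Agent.Gateway.Dict.SetupC.FC N)) = algebraMap ℂ (LaurentSeries ℂ) :=
    RingHom.ext fun c => Fermat.Agent.Gateway.Dict.SetupC.phi_algebraMap N c
  have haev : ∀ P : Polynomial ℂ, Fermat.Agent.Gateway.Dict.SetupC.phi N
      (Polynomial.aeval (Fermat.Agent.Gateway.Dict.SetupC.jF N) P)
      = Polynomial.aeval (iota ℚ ℂ jq) P := by
    intro P
    rw [Polynomial.aeval_def, Polynomial.hom_eval₂, hcomp, Polynomial.aeval_def, iota_jq N]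
    rfl
  simp only [map_mul, map_pow, haev] at h1
  exact h1

/-- **(E2)** `E_N` is integral over `ℚ[j]`. -/
theorem isIntegral_EQ : IsIntegral (Algebra.adjoin ℚ {jq}) (EQ N) := by
  obtain ⟨x, hx1, hx2⟩ := exists_FC_EHol N
  obtain ⟨⟨n, p, hrel⟩, -⟩ := exists_monic_relations N x hx1
  have h1 := coe_relation' N x n p hrel
  rw [hx2, ← iota_EQ] at h1
  exact isIntegral_of_iota_relation (EQ N) jq n p h1

/-- **(E2)** `1 / E_N` is integral over `ℚ[j]`: `E_N` is a unit off the cusps. -/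
theorem isIntegral_EQ_inv : IsIntegral (Algebra.adjoin ℚ {jq}) (EQ N)⁻¹ := by
  obtain ⟨x, hx1, hx2⟩ := exists_FC_EHol N
  obtain ⟨-, ⟨n, p, hrel⟩⟩ := exists_monic_relations N x hx1
  have h1 := coe_relation' N x⁻¹ n p hrel
  have h2 : ((x⁻¹ : Fermat.Agent.Gateway.Dict.SetupC.FC N) : LaurentSeries ℂ) =
      iota ℚ ℂ (EQ N)⁻¹ := by
    rw [map_inv₀, iota_EQ, ← hx2]
    rfl
  rw [h2] at h1
  exact isIntegral_of_iota_relation (EQ N)⁻¹ jq n p h1

theorem EQ_ne_zero : EQ N ≠ 0 := by
  intro h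
  obtain ⟨x, hx1, hx2⟩ := exists_FC_EHol N
  rw [← iota_EQ, h, map_zero] at hx2
  have hx0 : x = 0 := Subtype.ext hx2
  rw [hx0, map_zero] at hx1
  have h0 : EHol N = 0 :=
    (IsFractionRing.injective Fermat.Agent.S24.HolFun Fermat.Agent.S24.MerFun)
      (by rw [← hx1, map_zero])
  have := EHol_mul_EInv N
  rw [h0, zero_mul] at this
  exact zero_ne_one this

end Fermat.Agent.S40x.Diag.RefE
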