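import Fermat.Agent.S40x.Slope.InstMq
import Fermat.Agent.S40x.Diag.RefE.EUnitQ
import Fermat.Agent.S16.Two.QSeries
import Fermat.Agent.Gateway.ES.FrobLaurent
import Fermat.Agent.S34x.TwoVal.Iota0Level

/-!
# P-S44 (DIAG, leaf D-REFORD, ROUTE E), step (E3a): the reduction of the reference unit

Vocabulary of `Slope/InstMq` (level `M q`, `q ∤ M` the residue characteristic).  The reference unit
`E = Δ(t^q) / Δ(t) ∈ F_q ⊆ F_{Mq}` (`eFL`) has an integral `q`-expansion with unit leading
coefficient, hence lies in `valInfty`, is a unit there, and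

  `resInfty E = Δ̄ ^ (q - 1)`   in `k((t))`

(`Δ̄(t^q) = Δ̄(t)^q` in characteristic `q`): `coe_resInfty_eFL`.  So `Ub = Δ̄^(1-q) = (resInfty E)⁻¹`.
-/

set_option autoImplicit false
set_option linter.style.haveILetI false
set_option linter.unusedSectionVars false

noncomputable section

namespace Fermat.Agent.S40x.Diag.RefE

open ModularCurve AlgebraicCurve IntermediateField IsLocalRing
open Fermat.Agent.Gateway.Hecke Fermat.Agent.Gateway.ESC Fermat.Agent.Gateway.Kummer
open Fermat.Agent.Gateway.Red Fermat.Agent.Gateway.GoodRed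
open Fermat.Agent.S34x.TwoVal Fermat.Agent.S34x.C0two
open Fermat.Agent.S34x.Inst.RedSetupInst Fermat.Agent.S34x.Inst
open Fermat.Agent.S23.IntSeries Fermat.Agent.S16.SD Fermat.Agent.S16.Two

/-! ### Power series over a ring of characteristic `q` -/

section Formal

theorem map_map_intCast {R S : Type*} [CommRing R] [CommRing S] (φ : R →+* S)
    (f : PowerSeries ℤ) :
    (f.map (Int.castRingHom R)).map φ = f.map (Int.castRingHom S) := by
  ext n
  simp [PowerSeries.coeff_map]

theorem deltaPS_eq : deltaPS = DeltaZ := QS.DeltaZ_eq.symm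

variable (k : Type*) [Field k] (q : ℕ) [hq : Fact q.Prime] [CharP k q]

/-- `Δ̄(t^q) = Δ̄(t)^q` for the reduction of an integral series. -/
theorem expand_map_intCast (f : PowerSeries ℤ) :
    PowerSeries.expand q hq.out.ne_zero (f.map (Int.castRingHom k)) =
      (f.map (Int.castRingHom k)) ^ q := by
  rw [Fermat.Agent.Gateway.ES.powerSeries_pow_char q (f.map (Int.castRingHom k)),
    ← PowerSeries.map_expand, map_map_intCast]

/-- **the formal reduction of `E`**: `Ē = Δ̄^(q-1)`. -/
theorem EPS_map_eq :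
    haveI : NeZero q := ⟨hq.out.ne_zero⟩
    (EPS q).map (Int.castRingHom k) = Dq k ^ (q - 1) := by
  haveI : NeZero q := ⟨hq.out.ne_zero⟩
  have h1 := congrArg (PowerSeries.map (Int.castRingHom k)) (EPS_mul_deltaPS q)
  rw [map_mul, PowerSeries.map_expand, expand_map_intCast, deltaPS_eq] at h1
  have hD : Dq k = DeltaZ.map (Int.castRingHom k) := rfl
  rw [← hD] at h1
  have hD0 : Dq k ≠ 0 := Dq_ne_zero k
  have hq1 : q - 1 + 1 = q := Nat.sub_add_cancel hq.out.pos
  apply mul_right_cancel₀ hD0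
  rw [h1, ← pow_succ, hq1]

end Formal

/-! ### The reference unit at level `M q` -/

variable {L : Type} [Field L] [Algebra ℚ L] [IsAlgClosed L] [Algebra.IsAlgebraic ℚ L]
  {A : ValuationSubring L}
  {k : Type} [Field k] {π : A →+* k} [IsAlgClosed k]
variable {M q : ℕ} [NeZero M] [NeZero q] [Fact q.Prime] [CharP k q]
variable {hdeg : finrankAlong L (heckeAlphaBar L M q) = q + 1} {hq : q.Prime} {hqM : ¬ q ∣ M}
variable {hrk : ∀ x ∈ maximalIdeal A, ∀ c : A, c ≠ 0 → ∃ j : ℕ, c ∣ x ^ j}
  {hπ : Function.Surjective π}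

variable (L M q) in
/-- **the reference unit** `E = Δ(t^q)/Δ(t)` as an element of `F_{Mq}`. -/
def eFL : FL L (M * q) :=
  ⟨coeffEmb L (EQ q), FL_le_of_dvd (L := L) (dvd_mul_left q M) (coeffEmb_EQ_mem q L)⟩

theorem coe_eFL : ((eFL L M q : FL L (M * q)) : LaurentSeries L) = coeffEmb L (EQ q) := rfl

variable (A) in
/-- the `q`-expansion of `E` is `A`-integral. -/
theorem coe_eFL_eq_embA :
    ((eFL L M q : FL L (M * q)) : LaurentSeries L) =
      embA A (HahnSeries.ofPowerSeries ℤ A ((EPS q).map (Int.castRingHom A))) := by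
  rw [coe_eFL, EQ, coeffEmb, ModularCurve.coeffMap_ofPowerSeries, embA,
    ModularCurve.coeffMap_ofPowerSeries, map_map_intCast, map_map_intCast]

theorem eFL_ne_zero : eFL L M q ≠ 0 := by
  intro h
  have h1 := congrArg (fun x : FL L (M * q) => (x : LaurentSeries L)) h
  simp only [coe_eFL, ZeroMemClass.coe_zero] at h1
  have h2 : coeffEmb L (EQ q) = coeffEmb L 0 := by rw [h1, map_zero]
  exact EQ_ne_zero q ((coeffEmb L).injective h2)

variable (A π hrk hπ hqM) in
/-- `E ∈ valInfty`. -/
theorem eFL_mem_valInfty : eFL L M q ∈ valInfty A π M q hrk hπ hqM := by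
  rw [mem_valInfty_iff, mem_Ov_iff, coe_eFL_eq_embA A]
  exact embA_mem_gaussRing A π _

variable (H : ResidueFacts A π M q hdeg hq hqM hrk hπ)

/-- **(E3a)** `resInfty E = Δ̄^(q-1)` as a Laurent series over `k`. -/
theorem coe_resInfty_eFL :
    ((resInfty H ⟨eFL L M q, eFL_mem_valInfty A π hqM hrk hπ⟩ : modularFunctionFieldFullC k M) :
      LaurentSeries k) = HahnSeries.ofPowerSeries ℤ k (Dq k) ^ (q - 1) := by
  rw [coe_resInfty]
  have h1 := redV_of_eq_embA A π (FL L (M * q))
    ⟨eFL L M q, eFL_mem_valInfty A π hqM hrk hπ⟩ (coe_eFL_eq_embA (L := L) (M := M) (q := q) A)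
  rw [h1, redA, ModularCurve.coeffMap_ofPowerSeries, map_map_intCast, EPS_map_eq k q, map_pow]

/-- `resInfty E ≠ 0`. -/
theorem resInfty_eFL_ne_zero :
    resInfty H ⟨eFL L M q, eFL_mem_valInfty A π hqM hrk hπ⟩ ≠ 0 := by
  intro h
  have h1 := congrArg (fun x : modularFunctionFieldFullC k M => (x : LaurentSeries k)) h
  simp only [coe_resInfty_eFL, ZeroMemClass.coe_zero] at h1
  have h2 : HahnSeries.ofPowerSeries ℤ k (Dq k) = 0 := pow_eq_zero_iff (n := q - 1) (by
    have := (Fact.out : q.Prime).two_le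
    omega) |>.mp h1
  exact Dq_ne_zero k (HahnSeries.ofPowerSeries_injective (by rw [h2, map_zero]))

include H in
/-- `E` is a unit of `valInfty`: `v_∞(E) = 0`. -/
theorem valuation_eFL : (valInfty A π M q hrk hπ hqM).valuation (eFL L M q) = 1 := by
  have hu : IsUnit (⟨eFL L M q, eFL_mem_valInfty A π hqM hrk hπ⟩ : valInfty A π M q hrk hπ hqM) := by
    by_contra hnu
    exact resInfty_eFL_ne_zero H ((resInfty_eq_zero_iff H _).mpr hnu)
  exact (ValuationSubring.valuation_eq_one_iff _ _).mp hu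

end Fermat.Agent.S40x.Diag.RefE
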