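import Fermat.Agent.S40x.EdgeB.TameVal
import Fermat.Agent.S40x.Diag.RefE.IntRel

/-!
# P-S44 (DIAG, leaf D-REFORD, ROUTE E), step (E3): (TAME) for units off the special fibre

`S` a UFD with `Frac S = F0` (a node ring or a smooth-point ring of the arithmetic surface, in the
vocabulary of `EdgeB/TameVal`).  For `f ∈ F0` with `f, f⁻¹ ∈ S[1/p]` (e.g. `f`, `f⁻¹` integral over
a subring of `S[1/p]`: the reference unit `E = Δ(q^p)/Δ(q)` is integral over `ℚ[j]`):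

* `exact_of_mem_away` : hypothesis `H` (= `(n4)`) of `TameVal.tame_val` holds for `f`;
* `tame_unit_node` : at a node, `ord_{P_s} red_∞ (f / p^a) ≡ b - a (mod p)`, `a = v_∞ f`, `b = v_0 f`;
* `tame_unit_smooth` : at a smooth point, `ord_P red_∞ (f / p^a) = 0`.
-/

set_option autoImplicit false
set_option linter.unusedSectionVars false

namespace Fermat.Agent.S40x.Diag.RefE

open Fermat.Agent.S40x.TameVal AlgebraicCurve

variable {F0 : Type*} [Field F0]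
variable {S : Type*} [CommRing S] [IsDomain S] [UniqueFactorizationMonoid S] [Algebra S F0]
  [IsFractionRing S F0]
variable {k κ : Type*} [Field k] [Field κ] [Algebra k κ]

local notation "ι" => algebraMap S F0

/-- a prime `h` not dividing `π`: `h ^ n ∣ π ^ m * b → h ^ n ∣ b`. -/
theorem pow_dvd_of_dvd_pow_mul {h π b : S} (hh : Prime h) (hπ : ¬ h ∣ π) (n m : ℕ)
    (hd : h ^ n ∣ π ^ m * b) : h ^ n ∣ b :=
  hh.pow_dvd_of_dvd_mul_left n (fun hc => hπ (hh.dvd_of_dvd_pow hc)) hd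

/-- **`(n4)` for units of `S[1/π]`**: if `f, f⁻¹ ∈ S[1/π]` then every prime `h ∤ π` has the same
exact exponent in numerator and denominator of `f`. -/
theorem exact_eq_of_mem_away {π : S} {f : F0} (hf : f ≠ 0)
    (hx : f ∈ awaySubring (F0 := F0) π) (hy : f⁻¹ ∈ awaySubring (F0 := F0) π)
    {h : S} (hh : Prime h) (hπ : ¬ h ∣ π) {f1 f2 : S}
    (hfrac : f * ι f2 = ι f1) {n1 n2 : ℕ} (h1 : h ^ n1 ∣ f1) (h1' : ¬ h ^ (n1 + 1) ∣ f1)
    (h2 : h ^ n2 ∣ f2) (h2' : ¬ h ^ (n2 + 1) ∣ f2) : n1 = n2 := by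
  have hinj : Function.Injective (ι) := IsFractionRing.injective S F0
  obtain ⟨n, x, hx⟩ := hx
  obtain ⟨m, y, hy⟩ := hy
  -- `x * f2 = π ^ n * f1`, `y * f1 = π ^ m * f2`
  have e1 : x * f2 = π ^ n * f1 := by
    apply hinj
    rw [map_mul, map_mul, map_pow, ← hx, ← hfrac]
    ring
  have e2 : y * f1 = π ^ m * f2 := by
    apply hinj
    rw [map_mul, map_mul, map_pow, ← hy, ← hfrac]
    field_simp
  -- `h ^ n1 ∣ f2` and `h ^ n2 ∣ f1`
  have d1 : h ^ n1 ∣ f2 := by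
    apply pow_dvd_of_dvd_pow_mul hh hπ n1 m
    rw [← e2]
    exact Dvd.dvd.mul_left h1 y
  have d2 : h ^ n2 ∣ f1 := by
    apply pow_dvd_of_dvd_pow_mul hh hπ n2 n
    rw [← e1]
    exact Dvd.dvd.mul_left h2 x
  have le1 : n1 ≤ n2 := by
    by_contra hlt
    rw [not_le] at hlt
    exact h2' ((pow_dvd_pow h hlt).trans d1)
  have le2 : n2 ≤ n1 := by
    by_contra hlt
    rw [not_le] at hlt
    exact h1' ((pow_dvd_pow h hlt).trans d2)
  exact le_antisymm le1 le2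

/-- the hypothesis `H` of `TameVal.tame_val` for a unit of `S[1/p]`. -/
theorem exact_of_mem_away {p : ℕ} {u u' ψ : S} (hu : Prime u) (hu' : Prime u')
    (hrel : u * u' = (p : S) * ψ) {f : F0} (hf : f ≠ 0)
    (hx : f ∈ awaySubring (F0 := F0) (p : S)) (hy : f⁻¹ ∈ awaySubring (F0 := F0) (p : S)) :
    ∀ h : S, Prime h → ¬ Associated h u → ¬ Associated h u' →
      ∀ f1 f2 : S, f2 ≠ 0 → f * ι f2 = ι f1 →
      ∀ n1 n2 : ℕ, h ^ n1 ∣ f1 → ¬ h ^ (n1 + 1) ∣ f1 → h ^ n2 ∣ f2 → ¬ h ^ (n2 + 1) ∣ f2 →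
        (p : ℤ) ∣ (n1 : ℤ) - n2 := by
  intro h hh hhu hhu' f1 f2 hf2 hfrac n1 n2 h1 h1' h2 h2'
  have hπ : ¬ h ∣ (p : S) := by
    intro hd
    have h3 : h ∣ u * u' := by
      rw [hrel]
      exact Dvd.dvd.mul_right hd ψ
    rcases hh.dvd_or_dvd h3 with h4 | h4
    · exact hhu (hh.associated_of_dvd hu h4)
    · exact hhu' (hh.associated_of_dvd hu' h4)
  have := exact_eq_of_mem_away hf hx hy hh hπ hfrac h1 h1' h2 h2'
  rw [this, sub_self]
  exact dvd_zero _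

/-- **(TAME) at a node for a unit of `S[1/p]`** (no `(n4)` hypothesis left). -/
theorem tame_unit_node {p : ℕ} {u u' ψ : S} (hu : Prime u) (hu' : Prime u')
    (hne : ¬ Associated u u') (hψ : IsUnit ψ) (hrel : u * u' = (p : S) * ψ)
    (Oinf Ozero : ValuationSubring F0)
    (hInf_mem : ∀ x : S, ι x ∈ Oinf) (hInf_unit : ∀ x : S, ¬ u ∣ x → (ι x)⁻¹ ∈ Oinf)
    (hInf_p : (((p : ℕ) : F0))⁻¹ ∉ Oinf)
    (hZero_mem : ∀ x : S, ι x ∈ Ozero) (hZero_unit : ∀ x : S, ¬ u' ∣ x → (ι x)⁻¹ ∈ Ozero)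
    (hZero_p : (((p : ℕ) : F0))⁻¹ ∉ Ozero)
    (redInf : Oinf →+* κ)
    (Ps : Place k κ)
    (hPs_nonneg : ∀ x : S, 0 ≤ Ps.ord (redInf ⟨ι x, hInf_mem x⟩))
    (hPs_u' : Ps.ord (redInf ⟨ι u', hInf_mem u'⟩) = 1)
    (hp0 : 0 < p) {f : F0} (hf : f ≠ 0)
    (hx : f ∈ awaySubring (F0 := F0) (p : S)) (hy : f⁻¹ ∈ awaySubring (F0 := F0) (p : S))
    {a b : ℤ} (ha : Oinf.valuation f = Oinf.valuation ((p : ℕ) : F0) ^ a)
    (hb : Ozero.valuation f = Ozero.valuation ((p : ℕ) : F0) ^ b) :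
    ∃ hmem : f / ((p : ℕ) : F0) ^ a ∈ Oinf,
      Ps.ord (redInf ⟨f / ((p : ℕ) : F0) ^ a, hmem⟩) ≡ b - a [ZMOD p] :=
  tame_val hu hu' hne hψ hrel Oinf Ozero hInf_mem hInf_unit hInf_p hZero_mem hZero_unit hZero_p
    redInf Ps hPs_nonneg hPs_u' hp0 hf (exact_of_mem_away hu hu' hrel hf hx hy) ha hb

/-- a unit of `S[1/z]` (`z` prime) is `ε z ^ t` with `ε ∈ Sˣ`. -/
theorem exists_unit_mul_zpow_of_mem_away {z : S} (hz : Prime z) {f : F0} (hf : f ≠ 0)
    (hx : f ∈ awaySubring (F0 := F0) z) (hy : f⁻¹ ∈ awaySubring (F0 := F0) z) :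
    ∃ (ε : Sˣ) (t : ℤ), f = ι (ε : S) * ι z ^ t := by
  have hinj : Function.Injective (ι) := IsFractionRing.injective S F0
  have hz0 : ι z ≠ 0 := algebraMap_ne_zero' hz.ne_zero
  obtain ⟨n, x, hx⟩ := hx
  obtain ⟨m, y, hy⟩ := hy
  have hx0 : x ≠ 0 := by
    rintro rfl
    rw [map_zero] at hx
    exact (mul_ne_zero hf (pow_ne_zero _ hz0)) hx
  have hy0 : y ≠ 0 := by
    rintro rfl
    rw [map_zero] at hy
    exact (mul_ne_zero (inv_ne_zero hf) (pow_ne_zero _ hz0)) hy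
  obtain ⟨c, x', hx', ex⟩ := WfDvdMonoid.max_power_factor hx0 hz.irreducible
  obtain ⟨e, y', hy', ey⟩ := WfDvdMonoid.max_power_factor hy0 hz.irreducible
  -- `x' * y' * z ^ (c + e) = z ^ (n + m)`
  have e1 : x' * y' * z ^ (c + e) = z ^ (n + m) := by
    apply hinj
    have h1 : ι x * ι y = ι z ^ (n + m) := by
      rw [← hx, ← hy, pow_add]
      field_simp
    calc ι (x' * y' * z ^ (c + e)) = ι (z ^ c * x') * ι (z ^ e * y') := by
          rw [← map_mul]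
          congr 1
          rw [pow_add]
          ring
      _ = ι x * ι y := by rw [← ex, ← ey]
      _ = ι z ^ (n + m) := h1
      _ = ι (z ^ (n + m)) := (map_pow _ _ _).symm
  have hx'y' : ¬ z ∣ x' * y' := fun hd => (hz.dvd_or_dvd hd).elim hx' hy'
  -- compare exponents
  have hce : c + e = n + m := by
    rcases lt_trichotomy (c + e) (n + m) with hlt | heq | hgt
    · exfalso
      obtain ⟨d, hd⟩ := Nat.exists_eq_add_of_lt hlt
      have hpow : z ^ (n + m) = z ^ (c + e) * z ^ (d + 1) := by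
        rw [← pow_add]
        congr 1
      have h3 : x' * y' = z ^ (d + 1) := by
        apply mul_left_cancel₀ (pow_ne_zero (c + e) hz.ne_zero)
        rw [← hpow, ← e1]
        ring
      exact hx'y' (h3 ▸ dvd_pow_self z (Nat.succ_ne_zero d))
    · exact heq
    · exfalso
      obtain ⟨d, hd⟩ := Nat.exists_eq_add_of_lt hgt
      have hpow : z ^ (c + e) = z ^ (n + m) * z ^ (d + 1) := by
        rw [← pow_add]
        congr 1
      have h2 : z ^ (n + m) * (x' * y' * z ^ (d + 1)) = z ^ (n + m) * 1 := by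
        rw [mul_one]
        calc z ^ (n + m) * (x' * y' * z ^ (d + 1))
            = x' * y' * (z ^ (n + m) * z ^ (d + 1)) := by ring
          _ = x' * y' * z ^ (c + e) := by rw [hpow]
          _ = z ^ (n + m) := e1
      have h3 : x' * y' * z ^ (d + 1) = 1 := mul_left_cancel₀ (pow_ne_zero _ hz.ne_zero) h2
      have h4 : IsUnit (z ^ (d + 1)) := IsUnit.of_mul_eq_one _ (by rw [mul_comm]; exact h3)
      exact hz.not_isUnit ((isUnit_pow_iff (Nat.succ_ne_zero d)).mp h4)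
  have h5 : x' * y' = 1 := by
    apply mul_right_cancel₀ (pow_ne_zero (c + e) hz.ne_zero)
    rw [e1, one_mul, hce]
  refine ⟨⟨x', y', h5, by rw [mul_comm]; exact h5⟩, (c : ℤ) - n, ?_⟩
  show f = ι x' * ι z ^ ((c : ℤ) - n)
  rw [zpow_sub₀ hz0, zpow_natCast, zpow_natCast, mul_div_assoc', ← map_pow, ← map_mul,
    mul_comm x', ← ex, eq_div_iff (pow_ne_zero _ hz0), hx]

/-- **(TAME-Sm) for a unit of `S[1/z]`**: at a branch `O` of the prime `z` (a smooth point of the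
special fibre; `z = p`), the normalised reduction of `f` has order `0` at `Ps`. -/
theorem tame_unit_smooth {z : S} (hz : Prime z)
    (O : ValuationSubring F0)
    (hmem : ∀ x : S, ι x ∈ O) (hunit : ∀ x : S, ¬ z ∣ x → (ι x)⁻¹ ∈ O)
    (hzO : (ι z)⁻¹ ∉ O)
    (red : O →+* κ) (Ps : Place k κ)
    (hPs_nonneg : ∀ x : S, 0 ≤ Ps.ord (red ⟨ι x, hmem x⟩))
    {f : F0} (hf : f ≠ 0)
    (hx : f ∈ awaySubring (F0 := F0) z) (hy : f⁻¹ ∈ awaySubring (F0 := F0) z)
    {a : ℤ} (ha : O.valuation f = O.valuation (ι z) ^ a) :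
    ∃ hmem' : f / ι z ^ a ∈ O,
      red ⟨f / ι z ^ a, hmem'⟩ ≠ 0 ∧ Ps.ord (red ⟨f / ι z ^ a, hmem'⟩) = 0 := by
  obtain ⟨ε, t, hft⟩ := exists_unit_mul_zpow_of_mem_away hz hf hx hy
  have hz0 : ι z ≠ 0 := algebraMap_ne_zero' hz.ne_zero
  have hεz : ¬ z ∣ (ε : S) := fun hd => hz.not_isUnit (isUnit_of_dvd_unit hd ε.isUnit)
  have hvε : O.valuation (ι (ε : S)) = 1 := valuation_eq_one O hmem hunit hεz
  have hvz : O.valuation (ι z) < 1 := valuation_lt_one_of_inv_notMem O hzO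
  have hvz0 : O.valuation (ι z) ≠ 0 := (Valuation.ne_zero_iff _).mpr hz0
  have hat : a = t := by
    apply zpow_inj_of_lt_one hvz0 hvz
    rw [← ha, hft, map_mul, hvε, one_mul, map_zpow₀]
  have hquot : f / ι z ^ a = ι (ε : S) := by
    rw [hat, hft, mul_div_assoc, div_self (zpow_ne_zero _ hz0), mul_one]
  have hmem' : f / ι z ^ a ∈ O := by
    rw [hquot]
    exact hmem _
  refine ⟨hmem', ?_⟩
  let jS : S →+* O := (ι).codRestrict O.toSubring hmem
  let r : S →+* κ := red.comp jS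
  have hr : ∀ x : S, r x = red ⟨ι x, hmem x⟩ := fun x => rfl
  have h1 := ord_unit_eq_zero r Ps (fun x => by rw [hr]; exact hPs_nonneg x) ε.isUnit
  have e : (⟨f / ι z ^ a, hmem'⟩ : O) = ⟨ι (ε : S), hmem _⟩ := Subtype.ext hquot
  rw [e, ← hr]
  exact ⟨h1.2, h1.1⟩

end Fermat.Agent.S40x.Diag.RefE
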